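import Mathlib

/-!
helper74 (P-S48, P-pack, task 351).  The partial fraction expansion
`∑_{m ∈ ℤ} 1/(x + m)² = (2πi)² · u/(1 - u)²`, `u = exp(2πi x)`, for every non-integral complex `x`
(Mathlib has it on the upper half-plane only; the real case is obtained by a limit).
-/

set_option autoImplicit false

open Complex Filter Topology
open scoped Real

namespace Fermat.Agent.S48x.PPack

/-- The Lambert kernel `u / (1 - u)²`. -/
noncomputable def phiL (u : ℂ) : ℂ := u / (1 - u) ^ 2

theorem phiL_inv (u : ℂ) : phiL u⁻¹ = phiL u := by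
  unfold phiL
  by_cases hu : u = 0
  · simp [hu]
  by_cases h1 : 1 - u = 0
  · have : u = 1 := by linear_combination -h1
    simp [this]
  have h3 : 1 - u⁻¹ = -(1 - u) / u := by
    field_simp
    ring
  rw [h3]
  field_simp

theorem phiL_zero : phiL 0 = 0 := by simp [phiL]

/-- `u/(1-u)² = ∑ k u^k` for `‖u‖ < 1`. -/
theorem hasSum_phiL {u : ℂ} (hu : ‖u‖ < 1) : HasSum (fun k : ℕ => (k : ℂ) * u ^ k) (phiL u) := by
  have h := hasSum_coe_mul_geometric_of_norm_lt_one hu
  exact h

theorem summable_int_inv_add_sq (x : ℂ) : Summable fun m : ℤ => 1 / (x + m) ^ 2 := by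
  have := EisensteinSeries.linear_right_summable x 1 (k := 2) le_rfl
  refine this.congr fun m => ?_
  simp [zpow_ofNat]

/-- The case of the upper half-plane. -/
theorem hasSum_int_inv_add_sq_of_im_pos {x : ℂ} (hx : 0 < x.im) :
    HasSum (fun m : ℤ => 1 / (x + m) ^ 2)
      ((2 * π * I) ^ 2 * phiL (cexp (2 * π * I * x))) := by
  have h := EisensteinSeries.qExpansion_identity (k := 1) le_rfl ⟨x, hx⟩
  have hu : ‖cexp (2 * π * I * x)‖ < 1 := by
    have := UpperHalfPlane.norm_exp_two_pi_I_lt_one ⟨x, hx⟩
    simpa using this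
  have h2 := (hasSum_phiL hu).tsum_eq
  rw [(summable_int_inv_add_sq x).hasSum_iff]
  simp only [pow_one, Nat.factorial_one, Nat.cast_one, div_one] at h
  rw [show (1 + 1 : ℕ) = 2 from rfl] at h
  rw [h, h2]
  ring

theorem cexp_ne_one_of_mem_integerComplement {x : ℂ} (hx : x ∈ Complex.integerComplement) :
    cexp (2 * π * I * x) ≠ 1 := by
  intro h
  rw [Complex.exp_eq_one_iff] at h
  obtain ⟨n, hn⟩ := h
  apply hx
  refine ⟨n, ?_⟩
  have h2 : (2 * π * I : ℂ) ≠ 0 := Complex.two_pi_I_ne_zero
  have : (2 * π * I : ℂ) * x = (2 * π * I) * n := by rw [hn]; ring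
  exact (mul_left_cancel₀ h2 this).symm

/-- **Partial fractions of `π²/sin²`** on the whole complement of the integers. -/
theorem hasSum_int_inv_add_sq {x : ℂ} (hx : x ∈ Complex.integerComplement) :
    HasSum (fun m : ℤ => 1 / (x + m) ^ 2)
      ((2 * π * I) ^ 2 * phiL (cexp (2 * π * I * x))) := by
  rcases lt_trichotomy x.im 0 with him | him | him
  · -- lower half-plane: apply the upper half-plane case to `-x`
    have hneg : 0 < (-x).im := by simpa using him
    have h := hasSum_int_inv_add_sq_of_im_pos hneg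
    have h2 : HasSum (fun m : ℤ => 1 / (-x + ((-m : ℤ) : ℂ)) ^ 2)
        ((2 * π * I) ^ 2 * phiL (cexp (2 * π * I * -x))) :=
      (Equiv.neg ℤ).hasSum_iff.mpr h
    have e1 : cexp (2 * π * I * -x) = (cexp (2 * π * I * x))⁻¹ := by
      rw [← Complex.exp_neg]; congr 1; ring
    rw [e1, phiL_inv] at h2
    refine h2.congr_fun fun m => ?_
    push_cast
    rw [show x + (m : ℂ) = -(-x + -(m : ℂ)) by ring, neg_sq]
  · -- the real case, by a limit from the upper half-plane
    rw [(summable_int_inv_add_sq x).hasSum_iff]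
    have hlim1 : Tendsto (fun ε : ℝ => ∑' m : ℤ, 1 / ((x + ε * I) + m) ^ 2) (𝓝[>] 0)
        (𝓝 (∑' m : ℤ, 1 / (x + m) ^ 2)) := by
      refine tendsto_tsum_of_dominated_convergence (bound := fun m : ℤ => ‖1 / (x + m) ^ 2‖)
        (summable_int_inv_add_sq x).norm ?_ ?_
      · intro m
        have hne : x + m ≠ 0 := Complex.integerComplement_add_ne_zero hx m
        have hc : ContinuousAt (fun ε : ℝ => 1 / ((x + ε * I) + m) ^ 2) 0 := by
          refine ContinuousAt.div continuousAt_const ?_ ?_
          · fun_prop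
          · simpa using hne
        have := hc.tendsto
        simp only [ofReal_zero, zero_mul, add_zero] at this
        exact this.mono_left nhdsWithin_le_nhds
      · refine Filter.Eventually.of_forall fun ε m => ?_
        simp only [one_div, norm_inv, norm_pow]
        have hne : x + m ≠ 0 := Complex.integerComplement_add_ne_zero hx m
        have hpos : 0 < ‖x + m‖ := norm_pos_iff.mpr hne
        have hle : ‖x + m‖ ≤ ‖x + ε * I + m‖ := by
          have h1 : (x + m).im = 0 := by simp [him]
          have h2 : (x + ε * I + m).re = (x + m).re := by simp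
          calc ‖x + m‖ = |(x + m).re| := by
                rw [← Complex.abs_re_eq_norm.mpr h1]
            _ = |(x + ε * I + m).re| := by rw [h2]
            _ ≤ ‖x + ε * I + m‖ := Complex.abs_re_le_norm _
        gcongr
    have hlim2 : Tendsto (fun ε : ℝ => (2 * π * I) ^ 2 * phiL (cexp (2 * π * I * (x + ε * I))))
        (𝓝[>] 0) (𝓝 ((2 * π * I) ^ 2 * phiL (cexp (2 * π * I * x)))) := by
      have hne : (1 - cexp (2 * π * I * x)) ^ 2 ≠ 0 := by
        refine pow_ne_zero _ (sub_ne_zero.mpr ?_)
        exact (cexp_ne_one_of_mem_integerComplement hx).symm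
      have hc : ContinuousAt
          (fun ε : ℝ => (2 * π * I) ^ 2 * phiL (cexp (2 * π * I * (x + ε * I)))) 0 := by
        unfold phiL
        refine ContinuousAt.mul continuousAt_const (ContinuousAt.div ?_ ?_ ?_)
        · fun_prop
        · fun_prop
        · simpa using hne
      have := hc.tendsto
      simp only [ofReal_zero, zero_mul, add_zero] at this
      exact this.mono_left nhdsWithin_le_nhds
    have heq : ∀ᶠ ε : ℝ in 𝓝[>] 0, ∑' m : ℤ, 1 / ((x + ε * I) + m) ^ 2 =
        (2 * π * I) ^ 2 * phiL (cexp (2 * π * I * (x + ε * I))) := by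
      filter_upwards [self_mem_nhdsWithin] with ε hε
      have hpos : 0 < (x + ε * I).im := by
        simp [him]; exact hε
      exact (hasSum_int_inv_add_sq_of_im_pos hpos).tsum_eq
    exact tendsto_nhds_unique (hlim1.congr' heq) hlim2
  · exact hasSum_int_inv_add_sq_of_im_pos him

end Fermat.Agent.S48x.PPack
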