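import Mathlib
import Fermat.Agent.S48x.PPack.CotSq

/-!
helper74 (P-S48, P-pack, task 351).  Definitions of the coefficient functions of the
`q`-expansions of the `℘`-division values (note 1044): `zetaM`, `wpCoeff`, `tCoeff`
(`phiL u = u/(1-u)²` is in `PPack/CotSq.lean`).

`wpCoeff M a b N` is the coefficient of `q_M^N`, `q_M = exp(2πi τ/M)`, in
`(2πi)⁻² ℘((aτ+b)/M; ℤ+ℤτ)`; `tCoeff M a N` is the (integer) coefficient of `q^N` in
`12 (2πi)⁻² ℘(aτ; ℤ + Mτℤ)`.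
-/

set_option autoImplicit false

open Complex
open scoped Real

namespace Fermat.Agent.S48x.PPack

/-- The root of unity `exp(2πi/M)`. -/
noncomputable def zetaM (M : ℕ) : ℂ := cexp (2 * π * I / M)

/-- The term of `wpCoeff` attached to a divisor `d` of `N` with cofactor `k = N/d`. -/
noncomputable def wpTerm (M : ℕ) (a b : ℤ) (d k : ℕ) : ℂ :=
  (if (d : ℤ) ≡ a [ZMOD M] then (k : ℂ) * zetaM M ^ (b * (k : ℤ)) else 0)
    + (if (d : ℤ) ≡ -a [ZMOD M] then (k : ℂ) * zetaM M ^ (-(b * (k : ℤ))) else 0)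
    - (if M ∣ d then 2 * (k : ℂ) else 0)

/-- The coefficient of `q_M^N` in `(2πi)⁻² f_(a,b)`. -/
noncomputable def wpCoeff (M : ℕ) (a b : ℤ) (N : ℕ) : ℂ :=
  if N = 0 then 1 / 12 + (if (M : ℤ) ∣ a then phiL (zetaM M ^ b) else 0)
  else ∑ d ∈ N.divisors, wpTerm M a b d (N / d)

theorem wpCoeff_zero (M : ℕ) (a b : ℤ) :
    wpCoeff M a b 0 = 1 / 12 + (if (M : ℤ) ∣ a then phiL (zetaM M ^ b) else 0) := by
  simp [wpCoeff]

theorem wpCoeff_of_ne_zero (M : ℕ) (a b : ℤ) {N : ℕ} (hN : N ≠ 0) :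
    wpCoeff M a b N = ∑ d ∈ N.divisors, wpTerm M a b d (N / d) := by
  simp [wpCoeff, hN]

theorem wpCoeff_eq_sum_divisors (M : ℕ) (a b : ℤ) {N : ℕ} (hN : N ≠ 0) :
    wpCoeff M a b N = ∑ d ∈ N.divisors,
      ((if (d : ℤ) ≡ a [ZMOD M] then ((N / d : ℕ) : ℂ) * zetaM M ^ (b * ((N / d : ℕ) : ℤ)) else 0)
        + (if (d : ℤ) ≡ -a [ZMOD M] then
            ((N / d : ℕ) : ℂ) * zetaM M ^ (-(b * ((N / d : ℕ) : ℤ))) else 0)
        - (if M ∣ d then 2 * ((N / d : ℕ) : ℂ) else 0)) := by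
  rw [wpCoeff_of_ne_zero M a b hN]
  rfl

/-- The term of `tCoeff` attached to a divisor `d` with cofactor `k`. -/
def tTerm (M : ℕ) (a : ℤ) (d k : ℕ) : ℤ :=
  (if (d : ℤ) ≡ a [ZMOD M] then (k : ℤ) else 0)
    + (if (d : ℤ) ≡ -a [ZMOD M] then (k : ℤ) else 0)
    - (if M ∣ d then 2 * (k : ℤ) else 0)

/-- The integer coefficients of `t_a = 12 X_a + 1`, `X_a = (2πi)⁻² ℘(aτ; ℤ + Mτℤ) - 1/12`. -/
def tCoeff (M : ℕ) (a : ℤ) (N : ℕ) : ℤ :=
  if N = 0 then 1 else 12 * ∑ d ∈ N.divisors, tTerm M a d (N / d)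

theorem tCoeff_zero (M : ℕ) (a : ℤ) : tCoeff M a 0 = 1 := by simp [tCoeff]

theorem tCoeff_of_ne_zero (M : ℕ) (a : ℤ) {N : ℕ} (hN : N ≠ 0) :
    tCoeff M a N = 12 * ∑ d ∈ N.divisors, tTerm M a d (N / d) := by
  simp [tCoeff, hN]

theorem wpTerm_zero_right (M : ℕ) (a : ℤ) (d k : ℕ) :
    wpTerm M a 0 d k = (tTerm M a d k : ℂ) := by
  unfold wpTerm tTerm
  simp only [zero_mul, zpow_zero, mul_one, neg_zero]
  push_cast
  split_ifs <;> simp

/-- The integer series is `12` times the series of `f_(a,0)`. -/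
theorem tCoeff_eq (M : ℕ) {a : ℤ} (ha : ¬ (M : ℤ) ∣ a) (N : ℕ) :
    (tCoeff M a N : ℂ) = 12 * wpCoeff M a 0 N := by
  by_cases hN : N = 0
  · subst hN
    rw [tCoeff_zero, wpCoeff_zero, if_neg ha]
    norm_num
  · rw [tCoeff_of_ne_zero M a hN, wpCoeff_of_ne_zero M a 0 hN]
    push_cast
    congr 1
    exact Finset.sum_congr rfl fun d _ => (wpTerm_zero_right M a d (N / d)).symm

end Fermat.Agent.S48x.PPack
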