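import Mathlib
import Fermat.Agent.S48x.PPack.Defs

/-!
helper90 (P-S48, P-pack, task 351, part (P3)).  The leading term of `f_v - f_w`:
for labels `v = (a, b)`, `w = (a', b')`, both `≢ 0 mod M` and `v ≢ ± w mod M`, the
`q_M`-expansion coefficients `wpCoeff M a b N` and `wpCoeff M a' b' N` agree for `N < N0` and
differ at `N0` by a number `c` which is a unit outside `M` (`c ≠ 0`, and `M ^ k * c`,
`M ^ k * c⁻¹` are algebraic integers for some `k`).

Main exports (namespace `Fermat.Agent.S48x.PPack`): `UnitOutside`, `PMEq`, `wpCoeff_neg`,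
`wpCoeff_congr`, `PMEq.wpCoeff_eq`, `wpCoeff_of_le`, `exists_leading`, `exists_leading'`,
`wpCoeff_ne`.  Auxiliary facts on `zetaM` live in the namespace
`Fermat.Agent.S48x.PPack.Leading`.
-/

set_option autoImplicit false
set_option linter.unusedSectionVars false

open Complex
open scoped Real

namespace Fermat.Agent.S48x.PPack

namespace Leading

section Zeta

variable (M : ℕ) [NeZero M]

theorem isPrimitiveRoot_zetaM : IsPrimitiveRoot (zetaM M) M :=
  Complex.isPrimitiveRoot_exp M (NeZero.ne M)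

theorem zetaM_ne_zero : zetaM M ≠ 0 := Complex.exp_ne_zero _

theorem zetaM_zpow_eq_one_iff (j : ℤ) : zetaM M ^ j = 1 ↔ (M : ℤ) ∣ j :=
  (isPrimitiveRoot_zetaM M).zpow_eq_one_iff_dvd j

theorem zetaM_zpow_eq_zpow_iff (i j : ℤ) : zetaM M ^ i = zetaM M ^ j ↔ i ≡ j [ZMOD M] := by
  rw [Int.modEq_iff_dvd, ← zetaM_zpow_eq_one_iff, zpow_sub₀ (zetaM_ne_zero M),
    div_eq_one_iff_eq (zpow_ne_zero _ (zetaM_ne_zero M)), eq_comm]

theorem isIntegral_zetaM : IsIntegral ℤ (zetaM M) :=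
  (isPrimitiveRoot_zetaM M).isIntegral (NeZero.pos M)

theorem zetaM_zpow_eq_pow_toNat (j : ℤ) : zetaM M ^ j = zetaM M ^ (j % M).toNat := by
  have hM : (M : ℤ) ≠ 0 := by exact_mod_cast NeZero.ne M
  rw [← zpow_natCast, zetaM_zpow_eq_zpow_iff, Int.toNat_of_nonneg (Int.emod_nonneg _ hM)]
  exact (Int.mod_modEq j M).symm

theorem isIntegral_zetaM_zpow (j : ℤ) : IsIntegral ℤ (zetaM M ^ j) := by
  rw [zetaM_zpow_eq_pow_toNat]
  exact (isIntegral_zetaM M).pow _

/-- `M / (1 - ζ^j)` is an algebraic integer for `j ≢ 0 mod M`. -/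
theorem isIntegral_natCast_mul_inv_one_sub_zpow {j : ℤ} (hj : ¬ (M : ℤ) ∣ j) :
    IsIntegral ℤ ((M : ℂ) * (1 - zetaM M ^ j)⁻¹) := by
  have hM : (M : ℤ) ≠ 0 := by exact_mod_cast NeZero.ne M
  obtain ⟨n, hn⟩ : ∃ n, M = n + 1 := ⟨M - 1, by have := NeZero.pos M; omega⟩
  have hprim : IsPrimitiveRoot (zetaM M) (n + 1) := hn ▸ isPrimitiveRoot_zetaM M
  have hprod := hprim.prod_one_sub_pow_eq_order
  -- the index
  set r : ℕ := (j % M).toNat with hr
  have hr0 : r ≠ 0 := by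
    intro h0
    apply hj
    have h1 : j % M = 0 := by
      have := Int.toNat_of_nonneg (Int.emod_nonneg j hM)
      rw [← hr, h0] at this
      exact this.symm
    exact Int.dvd_of_emod_eq_zero h1
  have hrlt : r < M := by
    have h1 : j % M < M := Int.emod_lt_of_pos j (by exact_mod_cast NeZero.pos M)
    have := Int.toNat_of_nonneg (Int.emod_nonneg j hM)
    omega
  have hmem : r - 1 ∈ Finset.range n := by
    rw [Finset.mem_range]; omega
  rw [zetaM_zpow_eq_pow_toNat, ← hr]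
  rw [← Finset.mul_prod_erase _ _ hmem] at hprod
  have hr1 : r - 1 + 1 = r := by omega
  rw [hr1] at hprod
  have hne : (1 : ℂ) - zetaM M ^ r ≠ 0 := by
    intro h
    have h1 : zetaM M ^ r = 1 := (sub_eq_zero.1 h).symm
    have h2 := (isPrimitiveRoot_zetaM M).dvd_of_pow_eq_one r h1
    exact hr0 (Nat.eq_zero_of_dvd_of_lt h2 hrlt)
  have hM' : (M : ℂ) = (n : ℂ) + 1 := by rw [hn]; push_cast; ring
  have : (M : ℂ) * (1 - zetaM M ^ r)⁻¹ =
      ∏ x ∈ (Finset.range n).erase (r - 1), (1 - zetaM M ^ (x + 1)) := by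
    rw [hM', ← hprod]
    field_simp
  rw [this]
  refine IsIntegral.prod _ fun x _ => ?_
  exact isIntegral_one.sub ((isIntegral_zetaM M).pow _)

end Zeta

end Leading

open Leading

/-! ### units outside `M` -/

/-- `c` is a unit outside `M`: `c ≠ 0` and both `c` and `c⁻¹` become integral after
multiplication by a power of `M`. -/
def UnitOutside (M : ℕ) (c : ℂ) : Prop :=
  c ≠ 0 ∧ ∃ k : ℕ, IsIntegral ℤ ((M : ℂ) ^ k * c) ∧ IsIntegral ℤ ((M : ℂ) ^ k * c⁻¹)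

namespace UnitOutside

variable {M : ℕ} {c c' : ℂ}

theorem ne_zero (h : UnitOutside M c) : c ≠ 0 := h.1

theorem inv (h : UnitOutside M c) : UnitOutside M c⁻¹ := by
  obtain ⟨h0, k, h1, h2⟩ := h
  exact ⟨inv_ne_zero h0, k, h2, by rwa [inv_inv]⟩

theorem mul (h : UnitOutside M c) (h' : UnitOutside M c') : UnitOutside M (c * c') := by
  obtain ⟨h0, k, h1, h2⟩ := h
  obtain ⟨h0', k', h1', h2'⟩ := h'
  refine ⟨mul_ne_zero h0 h0', k + k', ?_, ?_⟩
  · have : (M : ℂ) ^ (k + k') * (c * c') = ((M : ℂ) ^ k * c) * ((M : ℂ) ^ k' * c') := by ring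
    rw [this]; exact h1.mul h1'
  · have : (M : ℂ) ^ (k + k') * (c * c')⁻¹ = ((M : ℂ) ^ k * c⁻¹) * ((M : ℂ) ^ k' * c'⁻¹) := by
      rw [mul_inv]; ring
    rw [this]; exact h2.mul h2'

theorem div (h : UnitOutside M c) (h' : UnitOutside M c') : UnitOutside M (c / c') := by
  rw [div_eq_mul_inv]; exact h.mul h'.inv

theorem neg (h : UnitOutside M c) : UnitOutside M (-c) := by
  obtain ⟨h0, k, h1, h2⟩ := h
  refine ⟨neg_ne_zero.2 h0, k, ?_, ?_⟩
  · rw [mul_neg]; exact h1.neg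
  · rw [inv_neg, mul_neg]; exact h2.neg

theorem pow (h : UnitOutside M c) (n : ℕ) : UnitOutside M (c ^ n) := by
  induction n with
  | zero => exact ⟨by simp, 0, by simpa using isIntegral_one, by simpa using isIntegral_one⟩
  | succ n ih => rw [pow_succ]; exact ih.mul h

theorem zetaM_zpow [NeZero M] (j : ℤ) : UnitOutside M (zetaM M ^ j) :=
  ⟨zpow_ne_zero _ (zetaM_ne_zero M), 0, by simpa using isIntegral_zetaM_zpow M j, by
    rw [← zpow_neg]; simpa using isIntegral_zetaM_zpow M (-j)⟩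

theorem one_sub_zetaM_zpow [NeZero M] {j : ℤ} (hj : ¬ (M : ℤ) ∣ j) :
    UnitOutside M (1 - zetaM M ^ j) :=
  ⟨fun h => hj ((zetaM_zpow_eq_one_iff M j).1 (sub_eq_zero.1 h).symm), 1, by
    rw [pow_one]
    exact (isIntegral_natCast (R := ℤ) (B := ℂ) M).mul
      (isIntegral_one.sub (isIntegral_zetaM_zpow M j)), by
    rw [pow_one]
    exact isIntegral_natCast_mul_inv_one_sub_zpow M hj⟩

end UnitOutside

/-! ### elementary properties of `wpCoeff` -/

section Coeff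

variable (M : ℕ) [NeZero M]

theorem wpCoeff_neg (a b : ℤ) (N : ℕ) : wpCoeff M (-a) (-b) N = wpCoeff M a b N := by
  rcases Nat.eq_zero_or_pos N with rfl | hN
  · rw [wpCoeff_zero, wpCoeff_zero, zpow_neg, phiL_inv]
    simp only [dvd_neg]
  · rw [wpCoeff_eq_sum_divisors M _ _ hN.ne', wpCoeff_eq_sum_divisors M _ _ hN.ne']
    refine Finset.sum_congr rfl fun d _ => ?_
    rw [neg_neg, neg_mul, neg_neg]
    ring

theorem wpCoeff_congr {a a' b b' : ℤ} (ha : a ≡ a' [ZMOD M]) (hb : b ≡ b' [ZMOD M]) (N : ℕ) :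
    wpCoeff M a b N = wpCoeff M a' b' N := by
  have hz : ∀ k : ℤ, zetaM M ^ (b * k) = zetaM M ^ (b' * k) := fun k =>
    (zetaM_zpow_eq_zpow_iff M _ _).2 (hb.mul_right k)
  have hz' : ∀ k : ℤ, zetaM M ^ (-(b * k)) = zetaM M ^ (-(b' * k)) := fun k =>
    (zetaM_zpow_eq_zpow_iff M _ _).2 (hb.mul_right k).neg
  rcases Nat.eq_zero_or_pos N with rfl | hN
  · rw [wpCoeff_zero, wpCoeff_zero]
    have h1 : (M : ℤ) ∣ a ↔ (M : ℤ) ∣ a' := ha.dvd_iff
    have h2 : zetaM M ^ b = zetaM M ^ b' := (zetaM_zpow_eq_zpow_iff M _ _).2 hb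
    rw [h2]
    simp only [h1]
  · rw [wpCoeff_eq_sum_divisors M _ _ hN.ne', wpCoeff_eq_sum_divisors M _ _ hN.ne']
    refine Finset.sum_congr rfl fun d _ => ?_
    have h1 : (d : ℤ) ≡ a [ZMOD M] ↔ (d : ℤ) ≡ a' [ZMOD M] :=
      ⟨fun h => h.trans ha, fun h => h.trans ha.symm⟩
    have h2 : (d : ℤ) ≡ -a [ZMOD M] ↔ (d : ℤ) ≡ -a' [ZMOD M] :=
      ⟨fun h => h.trans ha.neg, fun h => h.trans ha.neg.symm⟩
    rw [hz, hz']
    simp only [h1, h2]

/-- the coefficients up to the leading exponent, for a normalised label `(s, β)`,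
`0 < s ≤ M / 2`. -/
theorem wpCoeff_of_le {s : ℕ} (hs : 0 < s) (hsM : 2 * s ≤ M) (β : ℤ) {N : ℕ} (hN : 0 < N)
    (hNs : N ≤ s) :
    wpCoeff M s β N = (if N = s then zetaM M ^ β else 0)
      + (if N = s ∧ 2 * s = M then zetaM M ^ (-β) else 0) := by
  rw [wpCoeff_eq_sum_divisors M _ _ hN.ne',
    Finset.sum_eq_single_of_mem N (Nat.mem_divisors_self N hN.ne')]
  · have h1 : ((N : ℤ) ≡ (s : ℤ) [ZMOD M]) ↔ N = s := by
      constructor
      · intro h
        have hd : (M : ℤ) ∣ (s : ℤ) - N := (Int.modEq_iff_dvd.1 h)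
        have := Int.eq_zero_of_abs_lt_dvd hd (by rw [abs_lt]; constructor <;> omega)
        omega
      · rintro rfl; rfl
    have h2 : ((N : ℤ) ≡ -(s : ℤ) [ZMOD M]) ↔ (N = s ∧ 2 * s = M) := by
      constructor
      · intro h
        have hd : (M : ℤ) ∣ -(s : ℤ) - N := (Int.modEq_iff_dvd.1 h)
        have hd' : (M : ℤ) ∣ (s : ℤ) + N := by
          have := (dvd_neg (a := (M : ℤ))).2 hd
          rwa [show -(-(s : ℤ) - N) = (s : ℤ) + N by ring] at this
        have hle := Int.le_of_dvd (by omega) hd'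
        omega
      · rintro ⟨rfl, h⟩
        rw [Int.modEq_iff_dvd]
        refine ⟨-1, ?_⟩
        rw [← h]; push_cast; ring
    have h3 : ¬ M ∣ N := fun h => by
      have := Nat.le_of_dvd hN h
      omega
    rw [Nat.div_self hN]
    simp only [h1, h2, h3, if_false, sub_zero, Nat.cast_one, one_mul, mul_one]
  · intro d hd hdN
    have hdvd := Nat.dvd_of_mem_divisors hd
    have hdpos : 0 < d := Nat.pos_of_dvd_of_pos hdvd hN
    have hdle : d ≤ N := Nat.le_of_dvd hN hdvd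
    have hdlt : d < N := lt_of_le_of_ne hdle hdN
    have h1 : ¬ ((d : ℤ) ≡ (s : ℤ) [ZMOD M]) := by
      intro h
      have hd : (M : ℤ) ∣ (s : ℤ) - d := (Int.modEq_iff_dvd.1 h)
      have := Int.eq_zero_of_abs_lt_dvd hd (by rw [abs_lt]; constructor <;> omega)
      omega
    have h2 : ¬ ((d : ℤ) ≡ -(s : ℤ) [ZMOD M]) := by
      intro h
      have hd : (M : ℤ) ∣ -(s : ℤ) - d := (Int.modEq_iff_dvd.1 h)
      have hd' : (M : ℤ) ∣ (s : ℤ) + d := by
        have := (dvd_neg (a := (M : ℤ))).2 hd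
        rwa [show -(-(s : ℤ) - d) = (s : ℤ) + d by ring] at this
      have hle := Int.le_of_dvd (by omega) hd'
      omega
    have h3 : ¬ M ∣ d := fun h => by
      have := Nat.le_of_dvd hdpos h
      omega
    simp only [h1, h2, h3, if_false, sub_zero, add_zero]

/-! ### labels up to sign -/

/-- `(a, b) ≡ ± (a', b') mod M`. -/
def PMEq (a b a' b' : ℤ) : Prop :=
  (a ≡ a' [ZMOD M] ∧ b ≡ b' [ZMOD M]) ∨ (a ≡ -a' [ZMOD M] ∧ b ≡ -b' [ZMOD M])

variable {M}

theorem PMEq.symm {a b a' b' : ℤ} (h : PMEq M a b a' b') : PMEq M a' b' a b := by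
  rcases h with ⟨h1, h2⟩ | ⟨h1, h2⟩
  · exact Or.inl ⟨h1.symm, h2.symm⟩
  · refine Or.inr ⟨?_, ?_⟩
    · have := h1.neg.symm; rwa [neg_neg] at this
    · have := h2.neg.symm; rwa [neg_neg] at this

theorem PMEq.trans {a b a' b' a'' b'' : ℤ} (h : PMEq M a b a' b') (h' : PMEq M a' b' a'' b'') :
    PMEq M a b a'' b'' := by
  rcases h with ⟨h1, h2⟩ | ⟨h1, h2⟩ <;> rcases h' with ⟨h1', h2'⟩ | ⟨h1', h2'⟩
  · exact Or.inl ⟨h1.trans h1', h2.trans h2'⟩
  · exact Or.inr ⟨h1.trans h1', h2.trans h2'⟩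
  · exact Or.inr ⟨h1.trans h1'.neg, h2.trans h2'.neg⟩
  · refine Or.inl ⟨?_, ?_⟩
    · have := h1.trans h1'.neg; rwa [neg_neg] at this
    · have := h2.trans h2'.neg; rwa [neg_neg] at this

theorem PMEq.wpCoeff_eq {a b a' b' : ℤ} (h : PMEq M a b a' b') (N : ℕ) :
    wpCoeff M a b N = wpCoeff M a' b' N := by
  rcases h with ⟨h1, h2⟩ | ⟨h1, h2⟩
  · exact wpCoeff_congr M h1 h2 N
  · rw [wpCoeff_congr M h1 h2 N, wpCoeff_neg]

theorem PMEq.dvd_iff {a b a' b' : ℤ} (h : PMEq M a b a' b') :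
    ((M : ℤ) ∣ a ∧ (M : ℤ) ∣ b) ↔ ((M : ℤ) ∣ a' ∧ (M : ℤ) ∣ b') := by
  rcases h with ⟨h1, h2⟩ | ⟨h1, h2⟩
  · rw [h1.dvd_iff, h2.dvd_iff]
  · rw [h1.dvd_iff, h2.dvd_iff, dvd_neg, dvd_neg]

variable (M)

/-- every label is equivalent up to sign to a normalised one `(s, β)` with `0 ≤ s ≤ M / 2`. -/
theorem exists_normalised (a b : ℤ) : ∃ (s : ℕ) (β : ℤ), 2 * s ≤ M ∧ PMEq M a b s β := by
  have hM : (M : ℤ) ≠ 0 := by exact_mod_cast NeZero.ne M
  have hMpos : (0 : ℤ) < M := by exact_mod_cast NeZero.pos M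
  have h0 : 0 ≤ a % M := Int.emod_nonneg a hM
  have h1 : a % M < M := Int.emod_lt_of_pos a hMpos
  have hmod : a ≡ a % M [ZMOD M] := (Int.mod_modEq a M).symm
  by_cases h : 2 * (a % M) ≤ M
  · refine ⟨(a % M).toNat, b, by omega, Or.inl ⟨?_, Int.ModEq.refl b⟩⟩
    rw [Int.toNat_of_nonneg h0]
    exact hmod
  · refine ⟨((M : ℤ) - a % M).toNat, -b, by omega, Or.inr ⟨?_, by rw [neg_neg]⟩⟩
    rw [Int.toNat_of_nonneg (by omega)]
    refine hmod.trans ?_
    rw [Int.modEq_iff_dvd]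
    exact ⟨-1, by ring⟩


/-! ### the leading term of `f_v - f_w` -/

theorem phiL_sub_phiL {u u' : ℂ} (hu : 1 - u ≠ 0) (hu' : 1 - u' ≠ 0) :
    phiL u - phiL u' = (u - u') * (1 - u * u') / ((1 - u) ^ 2 * (1 - u') ^ 2) := by
  unfold phiL
  field_simp
  ring

theorem unitOutside_phiL {β : ℤ} (hβ : ¬ (M : ℤ) ∣ β) : UnitOutside M (phiL (zetaM M ^ β)) := by
  unfold phiL
  exact (UnitOutside.zetaM_zpow β).div ((UnitOutside.one_sub_zetaM_zpow hβ).pow 2)

theorem unitOutside_zpow_sub_zpow {β β' : ℤ} (h : ¬ β ≡ β' [ZMOD M]) :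
    UnitOutside M (zetaM M ^ β - zetaM M ^ β') := by
  have hd : ¬ (M : ℤ) ∣ β - β' := fun hd => h (Int.modEq_iff_dvd.2 (by
    have := (dvd_neg (a := (M : ℤ))).2 hd
    rwa [neg_sub] at this)).symm
  have : zetaM M ^ β - zetaM M ^ β' = -(zetaM M ^ β' * (1 - zetaM M ^ (β - β'))) := by
    rw [zpow_sub₀ (zetaM_ne_zero M)]
    field_simp [zpow_ne_zero _ (zetaM_ne_zero M)]
    ring
  rw [this]
  exact ((UnitOutside.zetaM_zpow β').mul (UnitOutside.one_sub_zetaM_zpow hd)).neg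

theorem unitOutside_phiL_sub_phiL {β β' : ℤ} (hβ : ¬ (M : ℤ) ∣ β) (hβ' : ¬ (M : ℤ) ∣ β')
    (h : ¬ β ≡ β' [ZMOD M]) (h' : ¬ β ≡ -β' [ZMOD M]) :
    UnitOutside M (phiL (zetaM M ^ β) - phiL (zetaM M ^ β')) := by
  have h1 := UnitOutside.one_sub_zetaM_zpow hβ
  have h2 := UnitOutside.one_sub_zetaM_zpow hβ'
  rw [phiL_sub_phiL h1.ne_zero h2.ne_zero]
  have hd : ¬ (M : ℤ) ∣ β + β' := fun hd => h' (by
    rw [Int.modEq_iff_dvd]
    have := (dvd_neg (a := (M : ℤ))).2 hd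
    rwa [show -(β + β') = -β' - β by ring] at this)
  have h3 : UnitOutside M (1 - zetaM M ^ β * zetaM M ^ β') := by
    rw [← zpow_add₀ (zetaM_ne_zero M)]
    exact UnitOutside.one_sub_zetaM_zpow hd
  exact ((unitOutside_zpow_sub_zpow M h).mul h3).div ((h1.pow 2).mul (h2.pow 2))

theorem unitOutside_sum_sub_sum {β β' : ℤ} (h : ¬ β ≡ β' [ZMOD M]) (h' : ¬ β ≡ -β' [ZMOD M]) :
    UnitOutside M (zetaM M ^ β + zetaM M ^ (-β) - (zetaM M ^ β' + zetaM M ^ (-β'))) := by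
  have hd : ¬ (M : ℤ) ∣ -β - β' := fun hd => h' (by
    rw [Int.modEq_iff_dvd, show -β' - β = -β - β' by ring]; exact hd)
  have : zetaM M ^ β + zetaM M ^ (-β) - (zetaM M ^ β' + zetaM M ^ (-β'))
      = (zetaM M ^ β - zetaM M ^ β') * (1 - zetaM M ^ (-β - β')) := by
    rw [zpow_sub₀ (zetaM_ne_zero M), zpow_neg, zpow_neg]
    field_simp [zpow_ne_zero _ (zetaM_ne_zero M)]
    ring
  rw [this]
  exact (unitOutside_zpow_sub_zpow M h).mul (UnitOutside.one_sub_zetaM_zpow hd)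

/-- the leading term for normalised labels. -/
theorem exists_leading_normalised {s s' : ℕ} {β β' : ℤ} (hs : 2 * s ≤ M) (hs' : 2 * s' ≤ M)
    (hv : ¬ ((M : ℤ) ∣ (s : ℤ) ∧ (M : ℤ) ∣ β)) (hw : ¬ ((M : ℤ) ∣ (s' : ℤ) ∧ (M : ℤ) ∣ β'))
    (hne : ¬ PMEq M s β s' β') :
    ∃ (N0 : ℕ) (c : ℂ), (∀ N < N0, wpCoeff M s β N = wpCoeff M s' β' N) ∧
      wpCoeff M s β N0 - wpCoeff M s' β' N0 = c ∧ UnitOutside M c := by
  have hMpos : 0 < M := NeZero.pos M
  -- `M ∤ s` for `0 < s ≤ M / 2`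
  have hnd : ∀ t : ℕ, 0 < t → 2 * t ≤ M → ¬ (M : ℤ) ∣ (t : ℤ) := by
    intro t ht htM hd
    have := Int.le_of_dvd (by exact_mod_cast ht) hd
    omega
  rcases Nat.eq_zero_or_pos s with rfl | hspos
  · have hβ : ¬ (M : ℤ) ∣ β := fun h => hv ⟨by simp, h⟩
    rcases Nat.eq_zero_or_pos s' with rfl | hs'pos
    · have hβ' : ¬ (M : ℤ) ∣ β' := fun h => hw ⟨by simp, h⟩
      have h1 : ¬ β ≡ β' [ZMOD M] := fun h => hne (Or.inl ⟨Int.ModEq.refl _, h⟩)
      have h2 : ¬ β ≡ -β' [ZMOD M] := fun h => hne (Or.inr ⟨by simp, h⟩)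
      refine ⟨0, _, fun N hN => absurd hN (Nat.not_lt_zero N), rfl, ?_⟩
      rw [wpCoeff_zero, wpCoeff_zero]
      simp only [Nat.cast_zero, dvd_zero, if_true, add_sub_add_left_eq_sub]
      exact unitOutside_phiL_sub_phiL M hβ hβ' h1 h2
    · refine ⟨0, _, fun N hN => absurd hN (Nat.not_lt_zero N), rfl, ?_⟩
      rw [wpCoeff_zero, wpCoeff_zero]
      simp only [Nat.cast_zero, dvd_zero, if_true, hnd s' hs'pos hs', if_false, add_zero,
        add_sub_cancel_left]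
      exact unitOutside_phiL M hβ
  · rcases Nat.eq_zero_or_pos s' with rfl | hs'pos
    · have hβ' : ¬ (M : ℤ) ∣ β' := fun h => hw ⟨by simp, h⟩
      refine ⟨0, _, fun N hN => absurd hN (Nat.not_lt_zero N), rfl, ?_⟩
      rw [wpCoeff_zero, wpCoeff_zero]
      simp only [Nat.cast_zero, dvd_zero, if_true, hnd s hspos hs, if_false, add_zero,
        sub_add_cancel_left]
      exact (unitOutside_phiL M hβ').neg
    · -- both positive
      have hzero : wpCoeff M s β 0 = wpCoeff M s' β' 0 := by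
        rw [wpCoeff_zero, wpCoeff_zero]
        simp only [hnd s hspos hs, hnd s' hs'pos hs', if_false]
      rcases lt_trichotomy s s' with hlt | heq | hgt
      · refine ⟨s, _, fun N hN => ?_, rfl, ?_⟩
        · rcases Nat.eq_zero_or_pos N with rfl | hNpos
          · exact hzero
          · rw [wpCoeff_of_le M hspos hs β hNpos hN.le,
              wpCoeff_of_le M hs'pos hs' β' hNpos (hN.le.trans hlt.le)]
            have h1 : N ≠ s := hN.ne
            have h2 : N ≠ s' := (hN.trans hlt).ne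
            simp [h1, h2]
        · rw [wpCoeff_of_le M hspos hs β hspos le_rfl,
            wpCoeff_of_le M hs'pos hs' β' hspos hlt.le]
          have h1 : ¬ (2 * s = M) := by omega
          have h2 : s ≠ s' := hlt.ne
          simp only [h1, h2, and_false, if_false, if_true, add_zero, sub_zero, false_and]
          exact UnitOutside.zetaM_zpow β
      · subst heq
        have h1 : ¬ β ≡ β' [ZMOD M] := fun h => hne (Or.inl ⟨Int.ModEq.refl _, h⟩)
        refine ⟨s, _, fun N hN => ?_, rfl, ?_⟩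
        · rcases Nat.eq_zero_or_pos N with rfl | hNpos
          · exact hzero
          · rw [wpCoeff_of_le M hspos hs β hNpos hN.le,
              wpCoeff_of_le M hspos hs β' hNpos hN.le]
            have h1 : N ≠ s := hN.ne
            simp [h1]
        · rw [wpCoeff_of_le M hspos hs β hspos le_rfl,
            wpCoeff_of_le M hspos hs β' hspos le_rfl]
          by_cases h2s : 2 * s = M
          · have h2 : ¬ β ≡ -β' [ZMOD M] := fun h => hne (Or.inr ⟨by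
              rw [Int.modEq_iff_dvd]
              refine ⟨-1, ?_⟩
              rw [← h2s]; push_cast; ring, h⟩)
            simp only [h2s, and_self, if_true]
            exact unitOutside_sum_sub_sum M h1 h2
          · simp only [h2s, and_false, if_false, if_true, add_zero]
            exact unitOutside_zpow_sub_zpow M h1
      · refine ⟨s', _, fun N hN => ?_, rfl, ?_⟩
        · rcases Nat.eq_zero_or_pos N with rfl | hNpos
          · exact hzero
          · rw [wpCoeff_of_le M hspos hs β hNpos (hN.le.trans hgt.le),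
              wpCoeff_of_le M hs'pos hs' β' hNpos hN.le]
            have h1 : N ≠ s' := hN.ne
            have h2 : N ≠ s := (hN.trans hgt).ne
            simp [h1, h2]
        · rw [wpCoeff_of_le M hspos hs β hs'pos hgt.le,
            wpCoeff_of_le M hs'pos hs' β' hs'pos le_rfl]
          have h1 : ¬ (2 * s' = M) := by omega
          have h2 : s' ≠ s := hgt.ne
          simp only [h1, h2, and_false, if_false, if_true, add_zero, zero_sub, false_and]
          exact (UnitOutside.zetaM_zpow β').neg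

/-- **(P3)** the leading term of `f_v - f_w` for `v, w ≢ 0` and `v ≢ ± w mod M`: the
`q_M`-expansion coefficients agree below `N0`, and differ at `N0` by a unit outside `M`. -/
theorem exists_leading (a b a' b' : ℤ) (hv : ¬ ((M : ℤ) ∣ a ∧ (M : ℤ) ∣ b))
    (hw : ¬ ((M : ℤ) ∣ a' ∧ (M : ℤ) ∣ b')) (hne : ¬ PMEq M a b a' b') :
    ∃ (N0 : ℕ) (c : ℂ), (∀ N < N0, wpCoeff M a b N = wpCoeff M a' b' N) ∧
      wpCoeff M a b N0 - wpCoeff M a' b' N0 = c ∧ UnitOutside M c := by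
  obtain ⟨s, β, hs, hv1⟩ := exists_normalised M a b
  obtain ⟨s', β', hs', hw1⟩ := exists_normalised M a' b'
  have hv' : ¬ ((M : ℤ) ∣ (s : ℤ) ∧ (M : ℤ) ∣ β) := fun h => hv (hv1.dvd_iff.2 h)
  have hw' : ¬ ((M : ℤ) ∣ (s' : ℤ) ∧ (M : ℤ) ∣ β') := fun h => hw (hw1.dvd_iff.2 h)
  have hne' : ¬ PMEq M s β s' β' := fun h => hne ((hv1.trans h).trans hw1.symm)
  obtain ⟨N0, c, h1, h2, h3⟩ := exists_leading_normalised M hs hs' hv' hw' hne'
  refine ⟨N0, c, fun N hN => ?_, ?_, h3⟩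
  · rw [hv1.wpCoeff_eq, hw1.wpCoeff_eq]; exact h1 N hN
  · rw [hv1.wpCoeff_eq, hw1.wpCoeff_eq]; exact h2

/-- **(P3)**, with the hypothesis `v ≢ ± w` spelled out. -/
theorem exists_leading' (a b a' b' : ℤ) (hv : ¬ ((M : ℤ) ∣ a ∧ (M : ℤ) ∣ b))
    (hw : ¬ ((M : ℤ) ∣ a' ∧ (M : ℤ) ∣ b'))
    (hne : ¬ (a ≡ a' [ZMOD M] ∧ b ≡ b' [ZMOD M]))
    (hne' : ¬ (a ≡ -a' [ZMOD M] ∧ b ≡ -b' [ZMOD M])) :
    ∃ (N0 : ℕ) (c : ℂ), c ≠ 0 ∧ (∀ N < N0, wpCoeff M a b N = wpCoeff M a' b' N) ∧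
      wpCoeff M a b N0 - wpCoeff M a' b' N0 = c ∧
      ∃ k : ℕ, IsIntegral ℤ ((M : ℂ) ^ k * c) ∧ IsIntegral ℤ ((M : ℂ) ^ k * c⁻¹) := by
  obtain ⟨N0, c, h1, h2, h3, h4⟩ := exists_leading M a b a' b' hv hw
    (fun h => h.elim hne hne')
  exact ⟨N0, c, h3, h1, h2, h4⟩

/-- the coefficient sequences of `f_v` and `f_w` are different for `v ≢ ± w`. -/
theorem wpCoeff_ne (a b a' b' : ℤ) (hv : ¬ ((M : ℤ) ∣ a ∧ (M : ℤ) ∣ b))
    (hw : ¬ ((M : ℤ) ∣ a' ∧ (M : ℤ) ∣ b')) (hne : ¬ PMEq M a b a' b') :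
    ∃ N : ℕ, wpCoeff M a b N ≠ wpCoeff M a' b' N := by
  obtain ⟨N0, c, -, h2, h3⟩ := exists_leading M a b a' b' hv hw hne
  refine ⟨N0, fun h => h3.ne_zero ?_⟩
  rw [← h2, h, sub_self]

end Coeff

end Fermat.Agent.S48x.PPack
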