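import Mathlib

/-!
helper74 (P-S48, P-pack, task 351).  The period pair `(1, τ)`, homogeneity of the Weierstrass
`℘`-function under rescaling of the lattice, and the `℘`-division values
`wpDiv M a b τ = ℘((aτ + b)/M; ℤ + ℤτ)` with their transformation law (P1):
`wpDiv M a b (γ • τ) = (cτ + d)² · wpDiv M (v γ) τ`.
-/

set_option autoImplicit false

open UpperHalfPlane Complex
open scoped MatrixGroups Real ModularForm

namespace Fermat.Agent.S48x.PPack

/-- The period pair `(1, τ)`. -/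
noncomputable def tauPair (τ : ℍ) : PeriodPair where
  ω₁ := 1
  ω₂ := τ
  indep := by
    rw [LinearIndependent.pair_iff]
    intro s t h
    have him := congrArg Complex.im h
    have hre := congrArg Complex.re h
    simp at him hre
    have ht : t = 0 := by
      rcases him with h0 | h0
      · exact h0
      · exact absurd h0 (ne_of_gt τ.im_pos)
    subst ht
    simp at hre
    exact ⟨hre, rfl⟩

@[simp] theorem tauPair_ω₁ (τ : ℍ) : (tauPair τ).ω₁ = 1 := rfl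
@[simp] theorem tauPair_ω₂ (τ : ℍ) : (tauPair τ).ω₂ = τ := rfl

theorem mem_tauPair_lattice {τ : ℍ} {x : ℂ} :
    x ∈ (tauPair τ).lattice ↔ ∃ m n : ℤ, (m : ℂ) + n * (τ : ℂ) = x := by
  rw [PeriodPair.mem_lattice]
  simp

/-- Homogeneity of `℘`: if `c • L = L'` then `℘[L'] (c z) = c⁻² ℘[L] z`. -/
theorem weierstrassP_of_smul_lattice (L L' : PeriodPair) {c : ℂ} (hc : c ≠ 0)
    (h : ∀ x : ℂ, c * x ∈ L'.lattice ↔ x ∈ L.lattice) (z : ℂ) :
    L'.weierstrassP (c * z) = (c ^ 2)⁻¹ * L.weierstrassP z := by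
  let e : L.lattice ≃ L'.lattice :=
    { toFun := fun l => ⟨c * l.1, (h l.1).mpr l.2⟩
      invFun := fun l => ⟨c⁻¹ * l.1, (h _).mp (by rw [mul_inv_cancel_left₀ hc]; exact l.2)⟩
      left_inv := fun l => by ext; simp [inv_mul_cancel_left₀ hc]
      right_inv := fun l => by ext; simp [mul_inv_cancel_left₀ hc] }
  unfold PeriodPair.weierstrassP
  rw [← e.tsum_eq, ← tsum_mul_left]
  refine tsum_congr fun l => ?_
  show 1 / (c * z - c * (l : ℂ)) ^ 2 - 1 / (c * (l : ℂ)) ^ 2 = _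
  rw [← mul_sub, mul_pow, mul_pow]
  field_simp

/-- `℘` only depends on the lattice. -/
theorem weierstrassP_congr_lattice (L L' : PeriodPair)
    (h : ∀ x : ℂ, x ∈ L'.lattice ↔ x ∈ L.lattice) (z : ℂ) :
    L'.weierstrassP z = L.weierstrassP z := by
  have := weierstrassP_of_smul_lattice L L' (c := 1) one_ne_zero (by simpa using h) z
  simpa using this

/-- The lattice of `γ • τ` is `(cτ + d)⁻¹` times the lattice of `τ`. -/
theorem denom_mul_mem_lattice_iff (γ : SL(2, ℤ)) (τ : ℍ) (y : ℂ) :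
    denom γ τ * y ∈ (tauPair τ).lattice ↔ y ∈ (tauPair (γ • τ)).lattice := by
  have hd : denom γ τ ≠ 0 := denom_ne_zero γ τ
  have hdet : (γ 0 0 : ℂ) * γ 1 1 - γ 0 1 * γ 1 0 = 1 := by
    have := Matrix.SpecialLinearGroup.det_coe γ
    rw [Matrix.det_fin_two] at this
    exact_mod_cast this
  have hsm : ((γ • τ : ℍ) : ℂ) = ((γ 0 0 : ℂ) * τ + γ 0 1) / denom γ τ := by
    rw [coe_specialLinearGroup_apply, ModularGroup.denom_apply]
    simp
  have hden : denom γ τ = (γ 1 0 : ℂ) * τ + γ 1 1 := ModularGroup.denom_apply γ τ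
  rw [mem_tauPair_lattice, mem_tauPair_lattice]
  constructor
  · rintro ⟨m', n', h⟩
    refine ⟨γ 0 0 * m' - γ 0 1 * n', -(γ 1 0) * m' + γ 1 1 * n', ?_⟩
    rw [hsm]
    have hy : y = ((m' : ℂ) + n' * τ) / denom γ τ := by
      rw [h]; field_simp
    rw [hy]
    field_simp
    rw [hden]
    push_cast
    linear_combination ((m' : ℂ) + n' * τ) * hdet
  · rintro ⟨m, n, h⟩
    refine ⟨m * γ 1 1 + n * γ 0 1, m * γ 1 0 + n * γ 0 0, ?_⟩
    rw [← h, hsm]
    field_simp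
    rw [hden]
    push_cast
    ring

/-- Transformation of `℘` under the modular group. -/
theorem weierstrassP_smul (γ : SL(2, ℤ)) (τ : ℍ) (z : ℂ) :
    (tauPair (γ • τ)).weierstrassP z =
      denom γ τ ^ 2 * (tauPair τ).weierstrassP (denom γ τ * z) := by
  have hd : denom γ τ ≠ 0 := denom_ne_zero γ τ
  have h := weierstrassP_of_smul_lattice (tauPair (γ • τ)) (tauPair τ) hd
    (denom_mul_mem_lattice_iff γ τ) z
  rw [h]
  field_simp

/-- The `℘`-division value `f_(a,b)(τ) = ℘((aτ + b)/M; ℤ + ℤτ)`. -/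
noncomputable def wpDiv (M : ℕ) (a b : ℤ) (τ : ℍ) : ℂ :=
  (tauPair τ).weierstrassP (((a : ℂ) * (τ : ℂ) + b) / M)

theorem wpDiv_def (M : ℕ) (a b : ℤ) (τ : ℍ) :
    wpDiv M a b τ = (tauPair τ).weierstrassP (((a : ℂ) * (τ : ℂ) + b) / M) := rfl

/-- **(P1)** `f_v (γ τ) = (cτ + d)² f_{vγ} (τ)`. -/
theorem wpDiv_smul (M : ℕ) (a b : ℤ) (γ : SL(2, ℤ)) (τ : ℍ) :
    wpDiv M a b (γ • τ) = denom γ τ ^ 2 *
      wpDiv M (a * γ 0 0 + b * γ 1 0) (a * γ 0 1 + b * γ 1 1) τ := by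
  have hd : denom γ τ ≠ 0 := denom_ne_zero γ τ
  have hsm : ((γ • τ : ℍ) : ℂ) = ((γ 0 0 : ℂ) * τ + γ 0 1) / denom γ τ := by
    rw [coe_specialLinearGroup_apply, ModularGroup.denom_apply]
    simp
  have hden : denom γ τ = (γ 1 0 : ℂ) * τ + γ 1 1 := ModularGroup.denom_apply γ τ
  rw [wpDiv_def, wpDiv_def, weierstrassP_smul]
  congr 2
  rw [hsm]
  field_simp
  rw [hden]
  push_cast
  ring

/-- **(P1)** in slash form: `f_v ∣[2] γ = f_{vγ}`. -/
theorem wpDiv_slash (M : ℕ) (a b : ℤ) (γ : SL(2, ℤ)) :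
    (wpDiv M a b) ∣[(2 : ℤ)] γ =
      wpDiv M (a * γ 0 0 + b * γ 1 0) (a * γ 0 1 + b * γ 1 1) := by
  funext τ
  have hd : denom γ τ ≠ 0 := denom_ne_zero γ τ
  rw [ModularForm.SL_slash_apply, wpDiv_smul]
  rw [zpow_neg, show ((2 : ℤ)) = ((2 : ℕ) : ℤ) from rfl, zpow_natCast]
  field_simp

/-- `f_v` depends only on `v` modulo `M`. -/
theorem wpDiv_add_mul (M : ℕ) [NeZero M] (a b k l : ℤ) :
    wpDiv M (a + M * k) (b + M * l) = wpDiv M a b := by
  funext τ
  have hM : (M : ℂ) ≠ 0 := Nat.cast_ne_zero.mpr (NeZero.ne M)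
  have hmem : (l : ℂ) + k * (τ : ℂ) ∈ (tauPair τ).lattice := mem_tauPair_lattice.mpr ⟨l, k, rfl⟩
  have := (tauPair τ).weierstrassP_add_coe (((a : ℂ) * (τ : ℂ) + b) / M) ⟨_, hmem⟩
  rw [wpDiv_def, wpDiv_def, ← this]
  congr 1
  push_cast
  field_simp
  ring

theorem wpDiv_congr (M : ℕ) [NeZero M] {a a' b b' : ℤ} (ha : a ≡ a' [ZMOD M])
    (hb : b ≡ b' [ZMOD M]) : wpDiv M a b = wpDiv M a' b' := by
  obtain ⟨k, hk⟩ := (Int.modEq_iff_dvd.mp ha)
  obtain ⟨l, hl⟩ := (Int.modEq_iff_dvd.mp hb)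
  have h1 : a' = a + M * k := by linarith
  have h2 : b' = b + M * l := by linarith
  rw [h1, h2, wpDiv_add_mul]

/-- `f_{-v} = f_v`. -/
theorem wpDiv_neg (M : ℕ) (a b : ℤ) : wpDiv M (-a) (-b) = wpDiv M a b := by
  funext τ
  rw [wpDiv_def, wpDiv_def, ← (tauPair τ).weierstrassP_neg]
  congr 1
  push_cast
  ring

/-- The division point is not a lattice point unless `v ≡ 0`. -/
theorem divPoint_notMem_lattice (M : ℕ) [NeZero M] {a b : ℤ}
    (h : ¬ ((M : ℤ) ∣ a ∧ (M : ℤ) ∣ b)) (τ : ℍ) :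
    ((a : ℂ) * (τ : ℂ) + b) / M ∉ (tauPair τ).lattice := by
  have hM : (M : ℂ) ≠ 0 := Nat.cast_ne_zero.mpr (NeZero.ne M)
  intro hmem
  obtain ⟨m, n, hmn⟩ := mem_tauPair_lattice.mp hmem
  have h1 : ((M * m - b : ℤ) : ℂ) + ((M * n - a : ℤ) : ℂ) * (τ : ℂ) = 0 := by
    have : (M : ℂ) * ((m : ℂ) + n * τ) = (a : ℂ) * τ + b := by
      rw [hmn]; field_simp
    push_cast
    linear_combination this
  have him := congrArg Complex.im h1
  simp only [add_im, intCast_im, mul_im, intCast_re, coe_im, zero_mul, add_zero, zero_add,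
    zero_im] at him
  have hn : ((M * n - a : ℤ) : ℝ) = 0 := by
    rcases mul_eq_zero.mp him with h0 | h0
    · exact h0
    · exact absurd h0 (ne_of_gt τ.im_pos)
  have hn' : M * n - a = 0 := by exact_mod_cast hn
  rw [hn'] at h1
  simp only [Int.cast_zero, zero_mul, add_zero] at h1
  have hm' : M * m - b = 0 := by exact_mod_cast h1
  exact h ⟨⟨n, by linarith⟩, ⟨m, by linarith⟩⟩

end Fermat.Agent.S48x.PPack
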