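import Mathlib
import Fermat.Agent.S48x.PPack.Lattice
import Fermat.Agent.S48x.PPack.CotSq

/-!
helper74 (P-S48, P-pack, task 351).  The Lambert-series form of the Weierstrass `℘`-function of
the lattice `ℤ + ℤτ`: for every `z` off the lattice, with `w = exp(2πi z)`, `q = exp(2πi τ)`,
`(2πi)⁻² ℘(z) = 1/12 + ∑_{n ∈ ℤ} φ(w qⁿ) - 2 ∑_{n ≥ 1} φ(qⁿ)`,  `φ(u) = u/(1-u)²`.
-/

set_option autoImplicit false

open UpperHalfPlane hiding I
open Complex Filter Topology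
open scoped Real

namespace Fermat.Agent.S48x.PPack

/-- The lattice sum of `℘` indexed by `ℤ × ℤ`. -/
theorem hasSum_prod_weierstrassP (τ : ℍ) (z : ℂ) :
    HasSum (fun p : ℤ × ℤ => 1 / (z - ((p.1 : ℂ) + p.2 * τ)) ^ 2 - 1 / ((p.1 : ℂ) + p.2 * τ) ^ 2)
      ((tauPair τ).weierstrassP z) := by
  have h := (tauPair τ).hasSum_weierstrassP z
  have h2 := ((tauPair τ).latticeEquivProd.symm.toEquiv.hasSum_iff).mpr h
  refine h2.congr_fun fun p => ?_
  simp only [Function.comp_apply, LinearEquiv.coe_toEquiv]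
  rw [PeriodPair.latticeEquiv_symm_apply]
  simp

/-- The nome `q = exp(2πi τ)`. -/
noncomputable def nome (τ : ℍ) : ℂ := cexp (2 * π * I * τ)

theorem nome_ne_zero (τ : ℍ) : nome τ ≠ 0 := Complex.exp_ne_zero _

theorem norm_nome_lt_one (τ : ℍ) : ‖nome τ‖ < 1 := by
  have := UpperHalfPlane.norm_exp_two_pi_I_lt_one τ
  simpa [nome] using this

theorem nome_zpow (τ : ℍ) (n : ℤ) : nome τ ^ n = cexp (2 * π * I * (n * τ)) := by
  rw [nome, ← Complex.exp_int_mul]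
  congr 1
  ring

theorem int_mul_tau_mem_integerComplement (τ : ℍ) {n : ℤ} (hn : n ≠ 0) :
    (n : ℂ) * (τ : ℂ) ∈ Complex.integerComplement := by
  rintro ⟨m, hm⟩
  have := congrArg Complex.im hm
  simp only [intCast_im, mul_im, intCast_re, coe_im, zero_mul, add_zero] at this
  have h0 : (n : ℝ) ≠ 0 := Int.cast_ne_zero.mpr hn
  exact (mul_ne_zero h0 (ne_of_gt τ.im_pos)) this.symm

theorem sub_int_mul_tau_mem_integerComplement (τ : ℍ) {z : ℂ} (hz : z ∉ (tauPair τ).lattice)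
    (n : ℤ) : z - (n : ℂ) * (τ : ℂ) ∈ Complex.integerComplement := by
  rintro ⟨m, hm⟩
  apply hz
  refine mem_tauPair_lattice.mpr ⟨m, n, ?_⟩
  rw [hm]; ring

/-- `∑_{m ≠ 0} 1/m² = π²/3`, as a sum over `ℤ` (the term `m = 0` vanishes). -/
theorem hasSum_int_inv_sq : HasSum (fun m : ℤ => 1 / (m : ℂ) ^ 2) ((π : ℂ) ^ 2 / 3) := by
  have h1 : HasSum (fun n : ℕ => 1 / ((n : ℤ) : ℂ) ^ 2) ((π : ℂ) ^ 2 / 6) := by
    have h2 := (Complex.hasSum_ofReal).mpr hasSum_zeta_two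
    have e : (((π ^ 2 / 6 : ℝ)) : ℂ) = (π : ℂ) ^ 2 / 6 := by push_cast; ring
    rw [e] at h2
    refine h2.congr_fun fun n => ?_
    push_cast
    ring
  have h2 : HasSum (fun n : ℕ => 1 / ((-((n : ℤ) + 1) : ℤ) : ℂ) ^ 2) ((π : ℂ) ^ 2 / 6) := by
    have h3 : HasSum (fun n : ℕ => 1 / (((n + 1 : ℕ) : ℤ) : ℂ) ^ 2) ((π : ℂ) ^ 2 / 6) := by
      have := (hasSum_nat_add_iff' (f := fun n : ℕ => 1 / ((n : ℤ) : ℂ) ^ 2) 1).mpr h1
      simpa using this
    refine h3.congr_fun fun n => ?_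
    push_cast
    ring
  have := HasSum.of_nat_of_neg_add_one (f := fun m : ℤ => 1 / (m : ℂ) ^ 2) h1 h2
  convert this using 1
  ring

/-- The constants of the rows: `-1/12` for `n = 0`, and `φ(qⁿ)` otherwise. -/
noncomputable def rowConst (τ : ℍ) (n : ℤ) : ℂ := if n = 0 then -1 / 12 else phiL (nome τ ^ n)

theorem hasSum_row_const (τ : ℍ) (n : ℤ) :
    HasSum (fun m : ℤ => 1 / ((m : ℂ) + n * τ) ^ 2) ((2 * π * I) ^ 2 * rowConst τ n) := by
  by_cases hn : n = 0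
  · subst hn
    have := hasSum_int_inv_sq
    simp only [rowConst, if_true, Int.cast_zero, zero_mul, add_zero]
    convert this using 1
    rw [mul_pow, mul_pow, I_sq]
    ring
  · have h := hasSum_int_inv_add_sq (int_mul_tau_mem_integerComplement τ hn)
    simp only [rowConst, if_neg hn]
    rw [nome_zpow]
    refine h.congr_fun fun m => ?_
    rw [add_comm]

theorem hasSum_row_var (τ : ℍ) {z : ℂ} (hz : z ∉ (tauPair τ).lattice) (n : ℤ) :
    HasSum (fun m : ℤ => 1 / (z - ((m : ℂ) + n * τ)) ^ 2)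
      ((2 * π * I) ^ 2 * phiL (cexp (2 * π * I * z) * nome τ ^ (-n))) := by
  have h := hasSum_int_inv_add_sq (sub_int_mul_tau_mem_integerComplement τ hz n)
  have h2 := (Equiv.neg ℤ).hasSum_iff.mpr h
  have e : cexp (2 * π * I * (z - n * τ)) = cexp (2 * π * I * z) * nome τ ^ (-n) := by
    rw [nome_zpow, ← Complex.exp_add]
    congr 1
    push_cast
    ring
  rw [e] at h2
  refine h2.congr_fun fun m => ?_
  simp only [Function.comp_apply, Equiv.neg_apply]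
  push_cast
  congr 2
  ring

/-- The sum over the rows. -/
theorem hasSum_rows (τ : ℍ) {z : ℂ} (hz : z ∉ (tauPair τ).lattice) :
    HasSum (fun n : ℤ => (2 * π * I) ^ 2 *
        (phiL (cexp (2 * π * I * z) * nome τ ^ (-n)) - rowConst τ n))
      ((tauPair τ).weierstrassP z) := by
  have h := hasSum_prod_weierstrassP τ z
  have h2 := (Equiv.prodComm ℤ ℤ).hasSum_iff.mpr h
  refine HasSum.prod_fiberwise h2 fun n => ?_
  have := (hasSum_row_var τ hz n).sub (hasSum_row_const τ n)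
  rw [← mul_sub] at this
  exact this

theorem norm_phiL_le {u : ℂ} {r : ℝ} (hr : r < 1) (hu : ‖u‖ ≤ r) :
    ‖phiL u‖ ≤ ‖u‖ / (1 - r) ^ 2 := by
  unfold phiL
  rw [norm_div, norm_pow]
  have h1 : 1 - r ≤ ‖1 - u‖ := by
    have := norm_sub_norm_le (1 : ℂ) u
    rw [norm_one] at this
    linarith
  have h2 : 0 < 1 - r := by linarith
  gcongr

theorem summable_phiL_nome_pow (τ : ℍ) : Summable fun n : ℕ => phiL (nome τ ^ (n + 1)) := by
  have hq := norm_nome_lt_one τ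
  have hq0 : 0 ≤ ‖nome τ‖ := norm_nonneg _
  refine Summable.of_norm_bounded (g := fun n : ℕ => ‖nome τ‖ ^ (n + 1) / (1 - ‖nome τ‖) ^ 2) ?_ ?_
  · have := (summable_geometric_of_lt_one hq0 hq).mul_left (‖nome τ‖ / (1 - ‖nome τ‖) ^ 2)
    refine this.congr fun n => ?_
    rw [pow_succ]; ring
  · intro n
    have hle : ‖nome τ ^ (n + 1)‖ ≤ ‖nome τ‖ := by
      rw [norm_pow]
      calc ‖nome τ‖ ^ (n + 1) ≤ ‖nome τ‖ ^ 1 := pow_le_pow_of_le_one hq0 hq.le (by omega)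
        _ = ‖nome τ‖ := pow_one _
    have := norm_phiL_le hq hle
    rwa [norm_pow] at this

/-- The constants of the rows sum to `-1/12 + 2 ∑_{n ≥ 1} φ(qⁿ)`. -/
theorem hasSum_rowConst (τ : ℍ) :
    HasSum (rowConst τ) (-1 / 12 + 2 * ∑' n : ℕ, phiL (nome τ ^ (n + 1))) := by
  have h1 : HasSum (fun n : ℕ => rowConst τ ((n : ℤ) + 1)) (∑' n : ℕ, phiL (nome τ ^ (n + 1))) := by
    refine (summable_phiL_nome_pow τ).hasSum.congr_fun fun n => ?_
    have : ((n : ℤ) + 1) ≠ 0 := by omega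
    simp only [rowConst, if_neg this]
    rw [show ((n : ℤ) + 1) = ((n + 1 : ℕ) : ℤ) by push_cast; ring, zpow_natCast]
  have h2 : HasSum (fun n : ℕ => rowConst τ (-((n : ℤ) + 1)))
      (∑' n : ℕ, phiL (nome τ ^ (n + 1))) := by
    refine (summable_phiL_nome_pow τ).hasSum.congr_fun fun n => ?_
    have : (-((n : ℤ) + 1)) ≠ 0 := by omega
    simp only [rowConst, if_neg this]
    rw [zpow_neg, phiL_inv, show ((n : ℤ) + 1) = ((n + 1 : ℕ) : ℤ) by push_cast; ring,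
      zpow_natCast]
  have := HasSum.of_add_one_of_neg_add_one h1 h2
  convert this using 1
  simp only [rowConst, if_true]
  ring

/-- **Lambert form of `℘`** (the engine of the `q`-expansions): for `z` off the lattice
`ℤ + ℤτ`, `∑_{n ∈ ℤ} φ(w qⁿ) = (2πi)⁻² ℘(z) - 1/12 + 2 ∑_{n ≥ 1} φ(qⁿ)`. -/
theorem hasSum_lambert (τ : ℍ) {z : ℂ} (hz : z ∉ (tauPair τ).lattice) :
    HasSum (fun n : ℤ => phiL (cexp (2 * π * I * z) * nome τ ^ n))
      (((2 * π * I) ^ 2)⁻¹ * (tauPair τ).weierstrassP z - 1 / 12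
        + 2 * ∑' n : ℕ, phiL (nome τ ^ (n + 1))) := by
  have h2pi : ((2 * π * I : ℂ)) ^ 2 ≠ 0 := pow_ne_zero _ Complex.two_pi_I_ne_zero
  have h1 := ((hasSum_rows τ hz).mul_left (((2 * π * I) ^ 2)⁻¹)).add (hasSum_rowConst τ)
  have h3 := (Equiv.neg ℤ).hasSum_iff.mpr h1
  have e : ((2 * π * I : ℂ) ^ 2)⁻¹ * (tauPair τ).weierstrassP z
      + (-1 / 12 + 2 * ∑' n : ℕ, phiL (nome τ ^ (n + 1))) =
      ((2 * π * I : ℂ) ^ 2)⁻¹ * (tauPair τ).weierstrassP z - 1 / 12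
        + 2 * ∑' n : ℕ, phiL (nome τ ^ (n + 1)) := by ring
  rw [e] at h3
  refine h3.congr_fun fun n => ?_
  simp only [Function.comp_apply, Equiv.neg_apply, neg_neg]
  rw [inv_mul_cancel_left₀ h2pi]
  ring

end Fermat.Agent.S48x.PPack
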