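import Mathlib
import Fermat.Agent.S48x.PPack.Lambert
import Fermat.Agent.S48x.PPack.Defs

/-!
helper74 (P-S48, P-pack, task 351).  **(P2)** The `q`-expansions of the `℘`-division values:
`(2πi)⁻² ℘((aτ+b)/M; ℤ+ℤτ) = ∑_N wpCoeff M a b N · q_M^N`, `q_M = exp(2πiτ/M)`.
-/

set_option autoImplicit false

open UpperHalfPlane hiding I
open Complex Filter Topology
open scoped Real

namespace Fermat.Agent.S48x.PPack

/-- The local parameter `q_M = exp(2πi τ/M)`. -/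
noncomputable def qM (M : ℕ) (τ : ℍ) : ℂ := cexp (2 * π * I * τ / M)

theorem qM_eq_qParam (M : ℕ) (τ : ℍ) : qM M τ = Function.Periodic.qParam (M : ℝ) τ := by
  simp [qM, Function.Periodic.qParam]

theorem qM_ne_zero (M : ℕ) (τ : ℍ) : qM M τ ≠ 0 := Complex.exp_ne_zero _

theorem norm_qM (M : ℕ) (τ : ℍ) : ‖qM M τ‖ = Real.exp (-(2 * π * τ.im / M)) := by
  rw [qM, Complex.norm_exp]
  congr 1
  have : (2 * π * I * (τ : ℂ) / M) = ((2 * π / M : ℝ) : ℂ) * (I * τ) := by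
    push_cast; ring
  rw [this, Complex.re_ofReal_mul]
  simp
  ring

theorem norm_qM_lt_one (M : ℕ) [NeZero M] (τ : ℍ) : ‖qM M τ‖ < 1 := by
  rw [norm_qM]
  have hM : (0 : ℝ) < M := Nat.cast_pos.mpr (NeZero.pos M)
  have := τ.im_pos
  have : 0 < 2 * π * τ.im / M := by positivity
  exact Real.exp_lt_one_iff.mpr (by linarith)

theorem qM_pow (M : ℕ) [NeZero M] (τ : ℍ) : qM M τ ^ M = nome τ := by
  have hM : (M : ℂ) ≠ 0 := Nat.cast_ne_zero.mpr (NeZero.ne M)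
  rw [qM, nome, ← Complex.exp_nat_mul]
  congr 1
  field_simp

theorem qM_zpow (M : ℕ) (τ : ℍ) (n : ℤ) : qM M τ ^ n = cexp (2 * π * I * (n * τ) / M) := by
  rw [qM, ← Complex.exp_int_mul]
  congr 1
  ring

theorem zetaM_zpow (M : ℕ) (n : ℤ) : zetaM M ^ n = cexp (2 * π * I * n / M) := by
  rw [zetaM, ← Complex.exp_int_mul]
  congr 1
  ring

theorem norm_zetaM_zpow (M : ℕ) (n : ℤ) : ‖zetaM M ^ n‖ = 1 := by
  rw [zetaM_zpow]
  have : (2 * π * I * (n : ℂ) / M) = ((2 * π * n / M : ℝ) : ℂ) * I := by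
    push_cast; ring
  rw [this, Complex.norm_exp_ofReal_mul_I]

theorem zetaM_ne_zero (M : ℕ) : zetaM M ≠ 0 := Complex.exp_ne_zero _

/-- `exp(2πi (aτ+b)/M) = ζ^b q_M^a`. -/
theorem cexp_divPoint (M : ℕ) (a b : ℤ) (τ : ℍ) :
    cexp (2 * π * I * (((a : ℂ) * (τ : ℂ) + b) / M)) = zetaM M ^ b * qM M τ ^ a := by
  rw [zetaM_zpow, qM_zpow, ← Complex.exp_add]
  congr 1
  ring

theorem nome_zpow_eq (M : ℕ) [NeZero M] (τ : ℍ) (n : ℤ) : nome τ ^ n = qM M τ ^ ((M : ℤ) * n) := by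
  rw [← qM_pow M τ, zpow_mul, zpow_natCast]

/-! ### Step A: the Lambert sum over the residue class of `a` -/

/-- `ψ(d) = [d ≡ a] φ(ζ^b q_M^d)`, `d ∈ ℤ`. -/
noncomputable def psiD (M : ℕ) (a b : ℤ) (τ : ℍ) (d : ℤ) : ℂ :=
  if d ≡ a [ZMOD M] then phiL (zetaM M ^ b * qM M τ ^ d) else 0

/-- The value of the Lambert sum. -/
noncomputable def lambertE (M : ℕ) (a b : ℤ) (τ : ℍ) : ℂ :=
  ((2 * π * I) ^ 2)⁻¹ * wpDiv M a b τ - 1 / 12 + 2 * ∑' n : ℕ, phiL (nome τ ^ (n + 1))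

theorem hasSum_psiD (M : ℕ) [NeZero M] {a b : ℤ} (h : ¬ ((M : ℤ) ∣ a ∧ (M : ℤ) ∣ b)) (τ : ℍ) :
    HasSum (psiD M a b τ) (lambertE M a b τ) := by
  have hM : (M : ℤ) ≠ 0 := Int.natCast_ne_zero.mpr (NeZero.ne M)
  have h0 := hasSum_lambert τ (divPoint_notMem_lattice M h τ)
  have hg : Function.Injective (fun n : ℤ => a + M * n) := by
    intro n n' hnn
    simp only [add_right_inj] at hnn
    exact mul_left_cancel₀ hM hnn
  have hzero : ∀ d ∉ Set.range (fun n : ℤ => a + M * n), psiD M a b τ d = 0 := by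
    intro d hd
    unfold psiD
    rw [if_neg]
    intro hda
    apply hd
    obtain ⟨k, hk⟩ := Int.modEq_iff_dvd.mp hda.symm
    exact ⟨k, by simp only; linarith⟩
  rw [← hg.hasSum_iff hzero]
  refine h0.congr_fun fun n => ?_
  simp only [Function.comp_apply, psiD]
  rw [if_pos (by simp [Int.ModEq])]
  rw [cexp_divPoint, nome_zpow_eq M, zpow_add₀ (qM_ne_zero M τ), mul_assoc]

/-! ### Step B: folding `ℤ` to `ℕ` -/

theorem hasSum_psiD_nat (M : ℕ) [NeZero M] {a b : ℤ} (h : ¬ ((M : ℤ) ∣ a ∧ (M : ℤ) ∣ b))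
    (τ : ℍ) :
    HasSum (fun d : ℕ => psiD M a b τ ((d + 1 : ℕ) : ℤ) + psiD M a b τ (-((d + 1 : ℕ) : ℤ)))
      (lambertE M a b τ - psiD M a b τ 0) := by
  have h1 := (hasSum_psiD M h τ).nat_add_neg
  have h2 := (hasSum_nat_add_iff' (f := fun n : ℕ => psiD M a b τ (n : ℤ) + psiD M a b τ (-(n : ℤ)))
    1).mpr h1
  have e : lambertE M a b τ + psiD M a b τ 0 -
      ∑ i ∈ Finset.range 1, (psiD M a b τ (i : ℤ) + psiD M a b τ (-(i : ℤ))) =
      lambertE M a b τ - psiD M a b τ 0 := by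
    rw [Finset.sum_range_one]
    simp only [Nat.cast_zero, neg_zero]
    ring
  rw [e] at h2
  exact h2

/-! ### Step C: the terms `-2 φ(qⁿ)` -/

theorem hasSum_nome_terms (M : ℕ) [NeZero M] (τ : ℍ) :
    HasSum (fun d : ℕ => if M ∣ (d + 1) then 2 * phiL (qM M τ ^ (d + 1)) else 0)
      (2 * ∑' n : ℕ, phiL (nome τ ^ (n + 1))) := by
  have hMpos : 0 < M := NeZero.pos M
  have hg : Function.Injective (fun n : ℕ => M * (n + 1) - 1) := by
    intro n n' hnn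
    simp only at hnn
    have h1 : 1 ≤ M * (n + 1) := Nat.mul_pos hMpos (Nat.succ_pos n)
    have h2 : 1 ≤ M * (n' + 1) := Nat.mul_pos hMpos (Nat.succ_pos n')
    have h3 : M * (n + 1) = M * (n' + 1) := by omega
    have := Nat.eq_of_mul_eq_mul_left hMpos h3
    omega
  have hzero : ∀ d ∉ Set.range (fun n : ℕ => M * (n + 1) - 1),
      (fun d : ℕ => if M ∣ (d + 1) then 2 * phiL (qM M τ ^ (d + 1)) else 0) d = 0 := by
    intro d hd
    simp only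
    rw [if_neg]
    intro hdvd
    apply hd
    obtain ⟨j, hj⟩ := hdvd
    have hj0 : j ≠ 0 := by
      rintro rfl
      simp at hj
    refine ⟨j - 1, ?_⟩
    simp only
    have : j - 1 + 1 = j := by omega
    rw [this, ← hj]
    omega
  rw [← hg.hasSum_iff hzero]
  have h0 := (summable_phiL_nome_pow τ).hasSum.mul_left 2
  refine h0.congr_fun fun n => ?_
  simp only [Function.comp_apply]
  have h1 : 1 ≤ M * (n + 1) := Nat.mul_pos hMpos (Nat.succ_pos n)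
  have h2 : M * (n + 1) - 1 + 1 = M * (n + 1) := by omega
  rw [h2, if_pos (Dvd.intro _ rfl), pow_mul, qM_pow]

/-! ### Step D: the rows `G(d)` -/

/-- `G(d) = ψ(d) + ψ(-d) - 2 [M ∣ d] φ(q_M^d)`. -/
noncomputable def rowG (M : ℕ) (a b : ℤ) (τ : ℍ) (d : ℕ) : ℂ :=
  psiD M a b τ (d : ℤ) + psiD M a b τ (-(d : ℤ)) - (if M ∣ d then 2 * phiL (qM M τ ^ d) else 0)

theorem psiD_zero (M : ℕ) (a b : ℤ) (τ : ℍ) :
    psiD M a b τ 0 = if (M : ℤ) ∣ a then phiL (zetaM M ^ b) else 0 := by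
  unfold psiD
  have : (0 ≡ a [ZMOD M]) ↔ (M : ℤ) ∣ a := by
    rw [Int.modEq_comm, Int.modEq_zero_iff_dvd]
  simp only [this, zpow_zero, mul_one]

theorem hasSum_rowG (M : ℕ) [NeZero M] {a b : ℤ} (h : ¬ ((M : ℤ) ∣ a ∧ (M : ℤ) ∣ b)) (τ : ℍ) :
    HasSum (fun d : ℕ => rowG M a b τ (d + 1))
      (((2 * π * I) ^ 2)⁻¹ * wpDiv M a b τ - wpCoeff M a b 0) := by
  have h1 := (hasSum_psiD_nat M h τ).sub (hasSum_nome_terms M τ)
  have e : lambertE M a b τ - psiD M a b τ 0 - 2 * ∑' n : ℕ, phiL (nome τ ^ (n + 1)) =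
      ((2 * π * I) ^ 2)⁻¹ * wpDiv M a b τ - wpCoeff M a b 0 := by
    rw [wpCoeff_zero, psiD_zero, lambertE]
    ring
  rw [e] at h1
  exact h1

/-! ### Step E: expansion of the rows -/

theorem norm_zeta_mul_qM_pow_lt_one (M : ℕ) [NeZero M] (τ : ℍ) (j : ℤ) {d : ℕ} (hd : d ≠ 0) :
    ‖zetaM M ^ j * qM M τ ^ d‖ < 1 := by
  rw [norm_mul, norm_zetaM_zpow, one_mul, norm_pow]
  exact pow_lt_one₀ (norm_nonneg _) (norm_qM_lt_one M τ) hd

theorem hasSum_zeta_qM (M : ℕ) [NeZero M] (τ : ℍ) (j : ℤ) {d : ℕ} (hd : d ≠ 0) :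
    HasSum (fun k : ℕ => ((k : ℂ) * zetaM M ^ (j * (k : ℤ))) * qM M τ ^ (d * k))
      (phiL (zetaM M ^ j * qM M τ ^ d)) := by
  have h := hasSum_phiL (norm_zeta_mul_qM_pow_lt_one M τ j hd)
  refine h.congr_fun fun k => ?_
  rw [mul_pow, ← pow_mul, zpow_mul, zpow_natCast]
  ring

theorem hasSum_rowG_expand (M : ℕ) [NeZero M] (a b : ℤ) (τ : ℍ) {d : ℕ} (hd : d ≠ 0) :
    HasSum (fun k : ℕ => wpTerm M a b d k * qM M τ ^ (d * k)) (rowG M a b τ d) := by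
  have H1 : HasSum (fun k : ℕ => (if (d : ℤ) ≡ a [ZMOD M] then (k : ℂ) * zetaM M ^ (b * (k : ℤ))
      else 0) * qM M τ ^ (d * k)) (psiD M a b τ (d : ℤ)) := by
    unfold psiD
    by_cases hda : (d : ℤ) ≡ a [ZMOD M]
    · simp only [if_pos hda, zpow_natCast]
      exact hasSum_zeta_qM M τ b hd
    · simp only [if_neg hda, zero_mul]
      exact hasSum_zero
  have H2 : HasSum (fun k : ℕ => (if (d : ℤ) ≡ -a [ZMOD M] then
      (k : ℂ) * zetaM M ^ (-(b * (k : ℤ))) else 0) * qM M τ ^ (d * k))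
      (psiD M a b τ (-(d : ℤ))) := by
    unfold psiD
    have hiff : (-(d : ℤ) ≡ a [ZMOD M]) ↔ ((d : ℤ) ≡ -a [ZMOD M]) := by
      constructor
      · intro h; simpa using h.neg
      · intro h; simpa using h.neg
    by_cases hda : (d : ℤ) ≡ -a [ZMOD M]
    · simp only [if_pos hda, if_pos (hiff.mpr hda)]
      have e : zetaM M ^ b * qM M τ ^ (-(d : ℤ)) = (zetaM M ^ (-b) * qM M τ ^ d)⁻¹ := by
        rw [mul_inv, zpow_neg, zpow_neg, inv_inv, zpow_natCast]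
      rw [e, phiL_inv]
      have := hasSum_zeta_qM M τ (-b) hd
      refine this.congr_fun fun k => ?_
      rw [neg_mul]
    · simp only [if_neg hda, if_neg (fun h => hda (hiff.mp h)), zero_mul]
      exact hasSum_zero
  have H3 : HasSum (fun k : ℕ => (if M ∣ d then 2 * (k : ℂ) else 0) * qM M τ ^ (d * k))
      (if M ∣ d then 2 * phiL (qM M τ ^ d) else 0) := by
    by_cases hMd : M ∣ d
    · simp only [if_pos hMd]
      have := (hasSum_zeta_qM M τ 0 hd).mul_left 2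
      simp only [zero_mul, zpow_zero, mul_one, one_mul] at this
      refine this.congr_fun fun k => ?_
      ring
    · simp only [if_neg hMd, zero_mul]
      exact hasSum_zero
  have := (H1.add H2).sub H3
  unfold rowG
  refine this.congr_fun fun k => ?_
  unfold wpTerm
  ring

/-! ### Step F: regrouping the double series -/

theorem norm_wpTerm_le (M : ℕ) (a b : ℤ) (d k : ℕ) : ‖wpTerm M a b d k‖ ≤ 4 * (k : ℝ) := by
  unfold wpTerm
  have hk : (0 : ℝ) ≤ k := Nat.cast_nonneg k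
  have h1 : ‖(if (d : ℤ) ≡ a [ZMOD M] then (k : ℂ) * zetaM M ^ (b * (k : ℤ)) else 0)‖ ≤ k := by
    split_ifs
    · rw [norm_mul, norm_zetaM_zpow, mul_one, Complex.norm_natCast]
    · simp
  have h2 : ‖(if (d : ℤ) ≡ -a [ZMOD M] then (k : ℂ) * zetaM M ^ (-(b * (k : ℤ))) else 0)‖ ≤ k := by
    split_ifs
    · rw [norm_mul, norm_zetaM_zpow, mul_one, Complex.norm_natCast]
    · simp
  have h3 : ‖(if M ∣ d then 2 * (k : ℂ) else 0)‖ ≤ 2 * k := by
    split_ifs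
    · rw [norm_mul, Complex.norm_natCast]; simp
    · simp only [norm_zero]; positivity
  calc _ ≤ ‖(if (d : ℤ) ≡ a [ZMOD M] then (k : ℂ) * zetaM M ^ (b * (k : ℤ)) else 0)
          + (if (d : ℤ) ≡ -a [ZMOD M] then (k : ℂ) * zetaM M ^ (-(b * (k : ℤ))) else 0)‖
          + ‖(if M ∣ d then 2 * (k : ℂ) else 0)‖ := norm_sub_le _ _
    _ ≤ (k + k) + 2 * k := by
        gcongr
        exact (norm_add_le _ _).trans (add_le_add h1 h2)
    _ = 4 * k := by ring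

/-- The double family. -/
noncomputable def wpFam (M : ℕ) (a b : ℤ) (τ : ℍ) (c : ℕ+ × ℕ+) : ℂ :=
  wpTerm M a b c.1 c.2 * qM M τ ^ ((c.1 : ℕ) * (c.2 : ℕ))

theorem summable_wpFam (M : ℕ) [NeZero M] (a b : ℤ) (τ : ℍ) : Summable (wpFam M a b τ) := by
  have hr : ‖(‖qM M τ‖ : ℝ)‖ < 1 := by
    rw [norm_norm]; exact norm_qM_lt_one M τ
  have h := (summable_prod_mul_pow (𝕜 := ℝ) 1 hr).mul_left 4
  refine Summable.of_norm_bounded h fun c => ?_
  unfold wpFam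
  rw [norm_mul, norm_pow]
  have := norm_wpTerm_le M a b c.1 c.2
  calc ‖wpTerm M a b c.1 c.2‖ * ‖qM M τ‖ ^ ((c.1 : ℕ) * (c.2 : ℕ))
      ≤ (4 * ((c.2 : ℕ) : ℝ)) * ‖qM M τ‖ ^ ((c.1 : ℕ) * (c.2 : ℕ)) := by gcongr
    _ = 4 * (((c.2 : ℕ) : ℝ) ^ 1 * ‖qM M τ‖ ^ ((c.1 : ℕ) * (c.2 : ℕ))) := by ring

theorem hasSum_pnat_of_nat {f : ℕ → ℂ} {s : ℂ} (h0 : f 0 = 0) (h : HasSum f s) :
    HasSum (fun k : ℕ+ => f k) s := by
  have hz : ∀ x ∉ Set.range ((↑) : ℕ+ → ℕ), f x = 0 := by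
    intro x hx
    by_cases hx0 : x = 0
    · rw [hx0, h0]
    · exact absurd ⟨⟨x, Nat.pos_of_ne_zero hx0⟩, rfl⟩ hx
  exact (PNat.coe_injective.hasSum_iff hz).mpr h

theorem hasSum_pnat_iff_succ {g : ℕ → ℂ} {s : ℂ} :
    HasSum (fun d : ℕ+ => g d) s ↔ HasSum (fun d : ℕ => g (d + 1)) s := by
  rw [← Equiv.pnatEquivNat.symm.hasSum_iff]
  rfl

/-- Summing the double family by rows. -/
theorem hasSum_wpFam (M : ℕ) [NeZero M] {a b : ℤ} (h : ¬ ((M : ℤ) ∣ a ∧ (M : ℤ) ∣ b)) (τ : ℍ) :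
    HasSum (wpFam M a b τ) (((2 * π * I) ^ 2)⁻¹ * wpDiv M a b τ - wpCoeff M a b 0) := by
  have hs := (summable_wpFam M a b τ).hasSum
  have hrows : HasSum (fun d : ℕ+ => rowG M a b τ d) (∑' c, wpFam M a b τ c) := by
    refine HasSum.prod_fiberwise hs fun d => ?_
    have := hasSum_rowG_expand M a b τ (d := d) (PNat.ne_zero d)
    exact hasSum_pnat_of_nat (by simp [wpTerm]) this
  have h2 := hasSum_pnat_iff_succ.mpr (hasSum_rowG M h τ)
  rw [← hrows.unique h2]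
  exact hs

/-- Summing the double family along the fibres of `(d, k) ↦ d k`. -/
theorem hasSum_wpCoeff_pnat (M : ℕ) [NeZero M] {a b : ℤ} (h : ¬ ((M : ℤ) ∣ a ∧ (M : ℤ) ∣ b))
    (τ : ℍ) :
    HasSum (fun N : ℕ+ => wpCoeff M a b N * qM M τ ^ (N : ℕ))
      (((2 * π * I) ^ 2)⁻¹ * wpDiv M a b τ - wpCoeff M a b 0) := by
  have hs := hasSum_wpFam M h τ
  have h2 := sigmaAntidiagonalEquivProd.hasSum_iff.mpr hs
  refine HasSum.sigma h2 fun N => ?_
  have hN : (N : ℕ) ≠ 0 := PNat.ne_zero N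
  have key : ∀ c : Nat.divisorsAntidiagonal (N : ℕ),
      (wpFam M a b τ ∘ sigmaAntidiagonalEquivProd) ⟨N, c⟩ =
        wpTerm M a b c.1.1 c.1.2 * qM M τ ^ (N : ℕ) := by
    intro c
    have hc := (Nat.mem_divisorsAntidiagonal.mp c.2).1
    simp only [Function.comp_apply, wpFam, sigmaAntidiagonalEquivProd,
      divisorsAntidiagonalFactors, Equiv.coe_fn_mk, PNat.mk_coe]
    rw [hc]
  have hfin := hasSum_fintype (fun c : Nat.divisorsAntidiagonal (N : ℕ) =>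
    (wpFam M a b τ ∘ sigmaAntidiagonalEquivProd) ⟨N, c⟩)
  have e : ∑ c : Nat.divisorsAntidiagonal (N : ℕ),
      (wpFam M a b τ ∘ sigmaAntidiagonalEquivProd) ⟨N, c⟩ =
        wpCoeff M a b N * qM M τ ^ (N : ℕ) := by
    simp_rw [key]
    rw [← Finset.sum_mul, wpCoeff_of_ne_zero M a b hN,
      ← Nat.sum_divisorsAntidiagonal (fun d k => wpTerm M a b d k)]
    congr 1
    exact Finset.sum_coe_sort (Nat.divisorsAntidiagonal (N : ℕ)) (fun p => wpTerm M a b p.1 p.2)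
  rw [e] at hfin
  exact hfin

/-- **(P2)** The `q`-expansion of the `℘`-division values:
`(2πi)⁻² f_(a,b)(τ) = ∑_N wpCoeff M a b N · q_M^N`. -/
theorem hasSum_wpDiv (M : ℕ) [NeZero M] {a b : ℤ} (h : ¬ ((M : ℤ) ∣ a ∧ (M : ℤ) ∣ b)) (τ : ℍ) :
    HasSum (fun N : ℕ => wpCoeff M a b N * qM M τ ^ N)
      (((2 * π * I) ^ 2)⁻¹ * wpDiv M a b τ) := by
  have h1 := (hasSum_pnat_iff_succ (g := fun N : ℕ => wpCoeff M a b N * qM M τ ^ N)).mp
    (hasSum_wpCoeff_pnat M h τ)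
  have e : ((2 * π * I) ^ 2)⁻¹ * wpDiv M a b τ - wpCoeff M a b 0 =
      ((2 * π * I) ^ 2)⁻¹ * wpDiv M a b τ -
        ∑ i ∈ Finset.range 1, wpCoeff M a b i * qM M τ ^ i := by
    simp
  rw [e] at h1
  exact (hasSum_nat_add_iff' 1).mp h1

/-- `(P2)`, solved for `f_(a,b)`. -/
theorem wpDiv_eq_tsum (M : ℕ) [NeZero M] {a b : ℤ} (h : ¬ ((M : ℤ) ∣ a ∧ (M : ℤ) ∣ b)) (τ : ℍ) :
    wpDiv M a b τ = (2 * π * I) ^ 2 * ∑' N : ℕ, wpCoeff M a b N * qM M τ ^ N := by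
  have h2pi : ((2 * π * I : ℂ)) ^ 2 ≠ 0 := pow_ne_zero _ Complex.two_pi_I_ne_zero
  rw [(hasSum_wpDiv M h τ).tsum_eq, mul_inv_cancel_left₀ h2pi]

end Fermat.Agent.S48x.PPack
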