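import Mathlib
import Fermat.Agent.S48x.PPack.QExp
import Fermat.Agent.S48x.PPack.Leading

/-!
helper74 (P-S48, P-pack, task 351).  Consequences of the `q`-expansion (P2): the `℘`-division
values are holomorphic on `ℍ`, `M`-periodic, bounded at `i∞`; their Mathlib `qExpansion M` is
`(2πi)² wpCoeff`; `f_v ≠ f_w` for `v ≢ ±w` (with helper90's `PPack/Leading`).
-/

set_option autoImplicit false

open UpperHalfPlane hiding I
open Complex Filter Topology
open scoped Real Manifold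

namespace Fermat.Agent.S48x.PPack

/-- A power series whose coefficients satisfy `∑ ‖c m‖ r^m < ∞` for all `r < 1` is holomorphic
on the unit disc. -/
theorem differentiableOn_tsum_pow {c : ℕ → ℂ}
    (hsum : ∀ r : ℝ, 0 < r → r < 1 → Summable (fun m => ‖c m‖ * r ^ m)) :
    DifferentiableOn ℂ (fun y : ℂ => ∑' m, c m * y ^ m) (Metric.ball 0 1) := by
  intro y₀ hy₀
  rw [mem_ball_zero_iff] at hy₀
  obtain ⟨r, hr0, hr1⟩ := exists_between hy₀
  have hrpos : 0 < r := lt_of_le_of_lt (norm_nonneg _) hr0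
  have hD : DifferentiableOn ℂ (fun y : ℂ => ∑' m, c m * y ^ m) (Metric.ball 0 r) := by
    refine differentiableOn_tsum_of_summable_norm (hsum r hrpos hr1) (fun m => ?_)
      Metric.isOpen_ball (fun m w hw => ?_)
    · fun_prop
    · rw [mem_ball_zero_iff] at hw
      rw [norm_mul, norm_pow]
      gcongr
  have hmem : Metric.ball (0 : ℂ) r ∈ 𝓝 y₀ := Metric.isOpen_ball.mem_nhds (mem_ball_zero_iff.mpr hr0)
  exact ((hD y₀ (mem_ball_zero_iff.mpr hr0)).differentiableAt hmem).differentiableWithinAt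

theorem summable_norm_wpCoeff (M : ℕ) [NeZero M] {a b : ℤ}
    (h : ¬ ((M : ℤ) ∣ a ∧ (M : ℤ) ∣ b)) {r : ℝ} (hr0 : 0 < r) (hr1 : r < 1) :
    Summable (fun N => ‖wpCoeff M a b N‖ * r ^ N) := by
  have hM : (0 : ℝ) < M := Nat.cast_pos.mpr (NeZero.pos M)
  have hq : ‖(r : ℂ)‖ < 1 := by
    rw [Complex.norm_real, Real.norm_eq_abs, abs_of_pos hr0]; exact hr1
  have hq1 : (r : ℂ) ≠ 0 := Complex.ofReal_ne_zero.mpr hr0.ne'
  have him := Function.Periodic.im_invQParam_pos_of_norm_lt_one hM hq hq1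
  let τ : ℍ := ⟨Function.Periodic.invQParam (M : ℝ) (r : ℂ), him⟩
  have hτ : qM M τ = (r : ℂ) := by
    rw [qM_eq_qParam]
    exact Function.Periodic.qParam_right_inv hM.ne' hq1
  have hs := (hasSum_wpDiv M h τ).summable.norm
  refine hs.congr fun N => ?_
  rw [hτ, norm_mul, norm_pow, Complex.norm_real, Real.norm_eq_abs, abs_of_pos hr0]

/-- The power series `∑ wpCoeff y^N` on the unit disc. -/
noncomputable def wpSeries (M : ℕ) (a b : ℤ) (y : ℂ) : ℂ := ∑' N : ℕ, wpCoeff M a b N * y ^ N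

theorem differentiableOn_wpSeries (M : ℕ) [NeZero M] {a b : ℤ}
    (h : ¬ ((M : ℤ) ∣ a ∧ (M : ℤ) ∣ b)) :
    DifferentiableOn ℂ (wpSeries M a b) (Metric.ball 0 1) :=
  differentiableOn_tsum_pow fun _ hr0 hr1 => summable_norm_wpCoeff M h hr0 hr1

theorem wpDiv_eq_wpSeries (M : ℕ) [NeZero M] {a b : ℤ}
    (h : ¬ ((M : ℤ) ∣ a ∧ (M : ℤ) ∣ b)) (τ : ℍ) :
    wpDiv M a b τ = (2 * π * I) ^ 2 * wpSeries M a b (qM M τ) :=
  wpDiv_eq_tsum M h τ

/-- **(P1, holomorphy)** The `℘`-division values are holomorphic on `ℍ`. -/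
theorem mdifferentiable_wpDiv (M : ℕ) [NeZero M] {a b : ℤ}
    (h : ¬ ((M : ℤ) ∣ a ∧ (M : ℤ) ∣ b)) : MDiff (wpDiv M a b) := by
  rw [UpperHalfPlane.mdifferentiable_iff]
  have hD : DifferentiableOn ℂ
      (fun z : ℂ => (2 * π * I) ^ 2 * wpSeries M a b (cexp (2 * π * I * z / M)))
      {z : ℂ | 0 < z.im} := by
    refine DifferentiableOn.const_mul ?_ _
    refine (differentiableOn_wpSeries M h).comp ?_ ?_
    · fun_prop
    · intro z hz
      have := norm_qM_lt_one M ⟨z, hz⟩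
      simpa [qM] using this
  refine hD.congr fun z hz => ?_
  simp only [Function.comp_apply]
  rw [UpperHalfPlane.ofComplex_apply_of_im_pos hz, wpDiv_eq_wpSeries M h]
  rfl

/-- The `q_M`-expansion in Mathlib's normal form. -/
theorem hasSum_wpDiv_qParam (M : ℕ) [NeZero M] {a b : ℤ}
    (h : ¬ ((M : ℤ) ∣ a ∧ (M : ℤ) ∣ b)) (τ : ℍ) :
    HasSum (fun N : ℕ => ((2 * π * I) ^ 2 * wpCoeff M a b N) •
      Function.Periodic.qParam (M : ℝ) τ ^ N) (wpDiv M a b τ) := by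
  have h2pi : ((2 * π * I : ℂ)) ^ 2 ≠ 0 := pow_ne_zero _ Complex.two_pi_I_ne_zero
  have := (hasSum_wpDiv M h τ).mul_left ((2 * π * I) ^ 2)
  rw [mul_inv_cancel_left₀ h2pi, qM_eq_qParam] at this
  refine this.congr_fun fun N => ?_
  rw [smul_eq_mul, mul_assoc]

theorem isBoundedAtImInfty_wpDiv (M : ℕ) [NeZero M] {a b : ℤ}
    (h : ¬ ((M : ℤ) ∣ a ∧ (M : ℤ) ∣ b)) : IsBoundedAtImInfty (wpDiv M a b) :=
  UpperHalfPlane.isBoundedAtImInfty_of_hasSum_qExpansion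
    (Nat.cast_pos.mpr (NeZero.pos M)) (hasSum_wpDiv_qParam M h)

theorem periodic_wpDiv (M : ℕ) [NeZero M] {a b : ℤ}
    (h : ¬ ((M : ℤ) ∣ a ∧ (M : ℤ) ∣ b)) :
    Function.Periodic (wpDiv M a b ∘ ofComplex) ((M : ℝ) : ℂ) := by
  intro z
  simp only [Function.comp_apply]
  by_cases hz : 0 < z.im
  · have hz' : 0 < (z + ((M : ℝ) : ℂ)).im := by simpa using hz
    rw [UpperHalfPlane.ofComplex_apply_of_im_pos hz, UpperHalfPlane.ofComplex_apply_of_im_pos hz',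
      wpDiv_eq_wpSeries M h, wpDiv_eq_wpSeries M h]
    congr 2
    simp only [qM]
    have hM : (M : ℂ) ≠ 0 := Nat.cast_ne_zero.mpr (NeZero.ne M)
    have : 2 * π * I * (z + ((M : ℝ) : ℂ)) / M = 2 * π * I * z / M + 2 * π * I := by
      push_cast
      field_simp
    rw [this, Complex.exp_add, Complex.exp_two_pi_mul_I, mul_one]
  · have hz' : ¬ 0 < (z + ((M : ℝ) : ℂ)).im := by simpa using hz
    rw [UpperHalfPlane.ofComplex_apply_of_im_nonpos (not_lt.mp hz),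
      UpperHalfPlane.ofComplex_apply_of_im_nonpos (not_lt.mp hz')]

theorem analyticAt_cuspFunction_wpDiv (M : ℕ) [NeZero M] {a b : ℤ}
    (h : ¬ ((M : ℤ) ∣ a ∧ (M : ℤ) ∣ b)) :
    AnalyticAt ℂ (UpperHalfPlane.cuspFunction (M : ℝ) (wpDiv M a b)) 0 :=
  UpperHalfPlane.analyticAt_cuspFunction_zero (Nat.cast_pos.mpr (NeZero.pos M))
    (periodic_wpDiv M h) (mdifferentiable_wpDiv M h) (isBoundedAtImInfty_wpDiv M h)

/-- Uniqueness of the coefficients of a convergent `q`-expansion. -/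
theorem coeff_eq_of_hasSum_qParam {h : ℝ} (hh : 0 < h) {f : ℍ → ℂ} {c c' : ℕ → ℂ}
    (hana : AnalyticAt ℂ (UpperHalfPlane.cuspFunction h f) 0)
    (hf : ∀ τ : ℍ, HasSum (fun m => c m • Function.Periodic.qParam h τ ^ m) (f τ))
    (hf' : ∀ τ : ℍ, HasSum (fun m => c' m • Function.Periodic.qParam h τ ^ m) (f τ)) :
    c = c' := by
  have h1 := (UpperHalfPlane.hasFPowerSeriesOnBall_cuspFunction hh hana hf).hasFPowerSeriesAt
  have h2 := (UpperHalfPlane.hasFPowerSeriesOnBall_cuspFunction hh hana hf').hasFPowerSeriesAt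
  have h3 := h1.eq_formalMultilinearSeries h2
  funext m
  have := congrArg (FormalMultilinearSeries.coeff · m) h3
  simpa [FormalMultilinearSeries.coeff_ofScalars] using this

/-- Mathlib's `q`-expansion (with period `M`) of `f_(a,b)`. -/
theorem qExpansion_wpDiv_coeff (M : ℕ) [NeZero M] {a b : ℤ}
    (h : ¬ ((M : ℤ) ∣ a ∧ (M : ℤ) ∣ b)) (N : ℕ) :
    (UpperHalfPlane.qExpansion (M : ℝ) (wpDiv M a b)).coeff N =
      (2 * π * I) ^ 2 * wpCoeff M a b N := by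
  have hM : (0 : ℝ) < (M : ℝ) := Nat.cast_pos.mpr (NeZero.pos M)
  have h1 := UpperHalfPlane.hasSum_qExpansion hM (periodic_wpDiv M h) (mdifferentiable_wpDiv M h)
    (isBoundedAtImInfty_wpDiv M h)
  have := coeff_eq_of_hasSum_qParam hM (analyticAt_cuspFunction_wpDiv M h) h1
    (hasSum_wpDiv_qParam M h)
  exact congrFun this N

/-- **(P3, function level)** `f_v ≠ f_w` unless `v ≡ ± w mod M`. -/
theorem wpDiv_ne (M : ℕ) [NeZero M] {a b a' b' : ℤ}
    (hv : ¬ ((M : ℤ) ∣ a ∧ (M : ℤ) ∣ b)) (hw : ¬ ((M : ℤ) ∣ a' ∧ (M : ℤ) ∣ b'))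
    (hne : ¬ PMEq M a b a' b') : wpDiv M a b ≠ wpDiv M a' b' := by
  intro heq
  obtain ⟨N, hN⟩ := wpCoeff_ne M a b a' b' hv hw hne
  apply hN
  have hM : (0 : ℝ) < (M : ℝ) := Nat.cast_pos.mpr (NeZero.pos M)
  have h2pi : ((2 * π * I : ℂ)) ^ 2 ≠ 0 := pow_ne_zero _ Complex.two_pi_I_ne_zero
  have h1 := hasSum_wpDiv_qParam M hv
  have h2 := hasSum_wpDiv_qParam M hw
  rw [← heq] at h2
  have := congrFun (coeff_eq_of_hasSum_qParam hM (analyticAt_cuspFunction_wpDiv M hv) h1 h2) N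
  exact mul_left_cancel₀ h2pi this

/-- `f_v = f_w ↔ v ≡ ± w mod M`. -/
theorem wpDiv_eq_iff (M : ℕ) [NeZero M] {a b a' b' : ℤ}
    (hv : ¬ ((M : ℤ) ∣ a ∧ (M : ℤ) ∣ b)) (hw : ¬ ((M : ℤ) ∣ a' ∧ (M : ℤ) ∣ b')) :
    wpDiv M a b = wpDiv M a' b' ↔ PMEq M a b a' b' := by
  constructor
  · intro heq
    by_contra hne
    exact wpDiv_ne M hv hw hne heq
  · rintro (⟨ha, hb⟩ | ⟨ha, hb⟩)
    · exact wpDiv_congr M ha hb
    · rw [← wpDiv_neg M a' b']
      exact wpDiv_congr M ha hb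

end Fermat.Agent.S48x.PPack
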