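import Mathlib
import Fermat.Agent.S48x.PPack.Defs

/-!
helper5 (P-S48, P-pack).  Basic facts on the root of unity `zetaM M = exp(2πi/M)`
(primitive, integral, integer powers lie in `ℤ[ζ]`; namespace
`Fermat.Agent.S48x.PPack.CycloUnit`, disjoint from helper90's `PPack.Leading` auxiliaries) and the cyclotomic unit lemma:
`M / (1 - ζ^j)` is integral (an element of `ℤ[ζ]`) for `j ≢ 0 mod M`, from
`M = ∑_{i<M} (1 - y^i) = (1 - y) ∑_{i<M} ∑_{l<i} y^l` for an `M`-th root of unity `y ≠ 1`.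
-/

set_option autoImplicit false

open Complex Finset
open scoped Real

namespace Fermat.Agent.S48x.PPack.CycloUnit

/-! ### A ring identity -/

section Ring

variable {R : Type*} [CommRing R]

/-- The cofactor of `1 - y` in `M`, for an `M`-th root of unity `y ≠ 1`. -/
def cycloQuot (y : R) (M : ℕ) : R := ∑ i ∈ range M, ∑ l ∈ range i, y ^ l

theorem one_sub_mul_cycloQuot (y : R) (M : ℕ) :
    (1 - y) * cycloQuot y M = (M : R) - ∑ i ∈ range M, y ^ i := by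
  unfold cycloQuot
  rw [mul_sum]
  have : ∀ i ∈ range M, (1 - y) * ∑ l ∈ range i, y ^ l = 1 - y ^ i := fun i _ =>
    mul_neg_geom_sum y i
  rw [sum_congr rfl this, sum_sub_distrib]
  simp

/-- In a domain, `(1 - y) * cycloQuot y M = M` for an `M`-th root of unity `y ≠ 1`. -/
theorem one_sub_mul_cycloQuot_eq [IsDomain R] {y : R} {M : ℕ} (hy : y ^ M = 1) (hy1 : y ≠ 1) :
    (1 - y) * cycloQuot y M = (M : R) := by
  rw [one_sub_mul_cycloQuot]
  have h0 : ∑ i ∈ range M, y ^ i = 0 := by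
    have h := mul_neg_geom_sum y M
    rw [hy, sub_self] at h
    rcases mul_eq_zero.mp h with h1 | h1
    · exact absurd (sub_eq_zero.mp h1).symm hy1
    · exact h1
  rw [h0, sub_zero]

end Ring

/-! ### The root of unity `zetaM M` -/

section Zeta

variable (M : ℕ) [NeZero M]

theorem isPrimitiveRoot_zetaM : IsPrimitiveRoot (zetaM M) M :=
  Complex.isPrimitiveRoot_exp M (NeZero.ne M)

theorem zetaM_pow_self : zetaM M ^ M = 1 := (isPrimitiveRoot_zetaM M).pow_eq_one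

omit [NeZero M] in
theorem zetaM_ne_zero : zetaM M ≠ 0 := Complex.exp_ne_zero _

theorem zetaM_zpow_eq_one_iff (b : ℤ) : zetaM M ^ b = 1 ↔ (M : ℤ) ∣ b :=
  (isPrimitiveRoot_zetaM M).zpow_eq_one_iff_dvd b

theorem zetaM_zpow_ne_one {b : ℤ} (hb : ¬ (M : ℤ) ∣ b) : zetaM M ^ b ≠ 1 :=
  fun h => hb ((zetaM_zpow_eq_one_iff M b).mp h)

theorem zetaM_zpow_emod (b : ℤ) : zetaM M ^ (b % (M : ℤ)) = zetaM M ^ b := by
  conv_rhs => rw [← Int.emod_add_mul_ediv b (M : ℤ)]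
  rw [zpow_add₀ (zetaM_ne_zero M), zpow_mul, zpow_natCast, zetaM_pow_self, one_zpow, mul_one]

theorem zetaM_zpow_eq_pow (b : ℤ) : zetaM M ^ b = zetaM M ^ (b % (M : ℤ)).toNat := by
  have hM : (M : ℤ) ≠ 0 := by exact_mod_cast NeZero.ne M
  have h0 : 0 ≤ b % (M : ℤ) := Int.emod_nonneg b hM
  rw [← zetaM_zpow_emod, ← zpow_natCast, Int.toNat_of_nonneg h0]

theorem zetaM_zpow_congr {b b' : ℤ} (h : b ≡ b' [ZMOD M]) : zetaM M ^ b = zetaM M ^ b' := by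
  rw [← zetaM_zpow_emod M b, ← zetaM_zpow_emod M b', h]

/-- Integer powers of `ζ` lie in `ℤ[ζ]`. -/
theorem zetaM_zpow_mem (b : ℤ) : zetaM M ^ b ∈ Algebra.adjoin ℤ {zetaM M} := by
  rw [zetaM_zpow_eq_pow]
  exact Subalgebra.pow_mem _ (Algebra.self_mem_adjoin_singleton ℤ _) _

theorem isIntegral_zetaM : IsIntegral ℤ (zetaM M) :=
  (isPrimitiveRoot_zetaM M).isIntegral (Nat.pos_of_ne_zero (NeZero.ne M))

/-- Every element of `ℤ[ζ]` is an algebraic integer. -/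
theorem isIntegral_of_mem_adjoin {x : ℂ} (hx : x ∈ Algebra.adjoin ℤ {zetaM M}) :
    IsIntegral ℤ x := by
  have h : Algebra.adjoin ℤ {zetaM M} ≤ integralClosure ℤ ℂ :=
    Algebra.adjoin_le (Set.singleton_subset_iff.mpr (isIntegral_zetaM M))
  exact h hx

theorem isIntegral_zetaM_zpow (b : ℤ) : IsIntegral ℤ (zetaM M ^ b) :=
  isIntegral_of_mem_adjoin M (zetaM_zpow_mem M b)

/-! ### The cyclotomic unit lemma -/

/-- `(1 - ζ^j) * cycloQuot (ζ^j) M = M` for `j ≢ 0 mod M`. -/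
theorem one_sub_zetaM_zpow_mul {j : ℤ} (hj : ¬ (M : ℤ) ∣ j) :
    (1 - zetaM M ^ j) * cycloQuot (zetaM M ^ j) M = (M : ℂ) := by
  refine one_sub_mul_cycloQuot_eq ?_ (zetaM_zpow_ne_one M hj)
  rw [← zpow_natCast, ← zpow_mul, mul_comm, zpow_mul, zpow_natCast, zetaM_pow_self, one_zpow]

theorem cycloQuot_zetaM_mem (j : ℤ) :
    cycloQuot (zetaM M ^ j) M ∈ Algebra.adjoin ℤ {zetaM M} := by
  unfold cycloQuot
  exact Subalgebra.sum_mem _ fun i _ => Subalgebra.sum_mem _ fun l _ =>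
    Subalgebra.pow_mem _ (zetaM_zpow_mem M j) l

theorem one_sub_zetaM_zpow_ne_zero {j : ℤ} (hj : ¬ (M : ℤ) ∣ j) : 1 - zetaM M ^ j ≠ 0 :=
  sub_ne_zero.mpr (zetaM_zpow_ne_one M hj).symm

/-- `M / (1 - ζ^j) = cycloQuot (ζ^j) M`. -/
theorem natCast_div_one_sub_zetaM_zpow {j : ℤ} (hj : ¬ (M : ℤ) ∣ j) :
    (M : ℂ) / (1 - zetaM M ^ j) = cycloQuot (zetaM M ^ j) M := by
  rw [div_eq_iff (one_sub_zetaM_zpow_ne_zero M hj), mul_comm]
  exact (one_sub_zetaM_zpow_mul M hj).symm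

/-- **Cyclotomic unit lemma**: `M / (1 - ζ^j) ∈ ℤ[ζ]` for `j ≢ 0 mod M`. -/
theorem natCast_div_one_sub_zetaM_zpow_mem {j : ℤ} (hj : ¬ (M : ℤ) ∣ j) :
    (M : ℂ) / (1 - zetaM M ^ j) ∈ Algebra.adjoin ℤ {zetaM M} := by
  rw [natCast_div_one_sub_zetaM_zpow M hj]
  exact cycloQuot_zetaM_mem M j

/-- `M / (1 - ζ^j)` is an algebraic integer for `j ≢ 0 mod M`: `1 - ζ^j` is a unit outside `M`. -/
theorem isIntegral_natCast_div_one_sub_zetaM_zpow {j : ℤ} (hj : ¬ (M : ℤ) ∣ j) :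
    IsIntegral ℤ ((M : ℂ) / (1 - zetaM M ^ j)) :=
  isIntegral_of_mem_adjoin M (natCast_div_one_sub_zetaM_zpow_mem M hj)

/-- `M * (1 - ζ^j)⁻¹` is an algebraic integer. -/
theorem isIntegral_natCast_mul_inv_one_sub_zetaM_zpow {j : ℤ} (hj : ¬ (M : ℤ) ∣ j) :
    IsIntegral ℤ ((M : ℂ) * (1 - zetaM M ^ j)⁻¹) := by
  rw [← div_eq_mul_inv]
  exact isIntegral_natCast_div_one_sub_zetaM_zpow M hj

theorem one_sub_zetaM_zpow_mem (j : ℤ) : 1 - zetaM M ^ j ∈ Algebra.adjoin ℤ {zetaM M} :=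
  Subalgebra.sub_mem _ (Subalgebra.one_mem _) (zetaM_zpow_mem M j)

theorem isIntegral_one_sub_zetaM_zpow (j : ℤ) : IsIntegral ℤ (1 - zetaM M ^ j) :=
  isIntegral_of_mem_adjoin M (one_sub_zetaM_zpow_mem M j)

end Zeta

end Fermat.Agent.S48x.PPack.CycloUnit
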