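import Mathlib
import Fermat.Agent.S48x.PPack.CycloUnit

/-!
helper5 (P-S48, P-pack, integrality).  The coefficients `wpCoeff M a b N` (`N ≠ 0`) of the
`q_M`-expansions of the `℘`-division values lie in `ℤ[ζ_M]`, hence are algebraic integers; the
constant coefficient becomes integral (an element of `ℤ[ζ_M]`) after multiplication by
`12 (1 - ζ^b)²` (when `M ∣ a`, `M ∤ b`) resp. by `12` (when `M ∤ a`).  The integer series
`tCoeff` is the case `b = 0`.
-/

set_option autoImplicit false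

open Complex Finset
open scoped Real

namespace Fermat.Agent.S48x.PPack

open CycloUnit

section Integer

variable (M : ℕ) [NeZero M]

/-- Each divisor term of `wpCoeff` lies in `ℤ[ζ]`. -/
theorem wpTerm_mem_adjoin (a b : ℤ) (d k : ℕ) :
    wpTerm M a b d k ∈ Algebra.adjoin ℤ {zetaM M} := by
  unfold wpTerm
  refine Subalgebra.sub_mem _ (Subalgebra.add_mem _ ?_ ?_) ?_
  · split_ifs
    · exact Subalgebra.mul_mem _ (natCast_mem _ k) (zetaM_zpow_mem M _)
    · exact Subalgebra.zero_mem _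
  · split_ifs
    · exact Subalgebra.mul_mem _ (natCast_mem _ k) (zetaM_zpow_mem M _)
    · exact Subalgebra.zero_mem _
  · split_ifs
    · exact Subalgebra.mul_mem _ (ofNat_mem _ 2) (natCast_mem _ k)
    · exact Subalgebra.zero_mem _

/-- **Integrality of the higher coefficients**: `wpCoeff M a b N ∈ ℤ[ζ_M]` for `N ≠ 0`. -/
theorem wpCoeff_mem_adjoin (a b : ℤ) {N : ℕ} (hN : N ≠ 0) :
    wpCoeff M a b N ∈ Algebra.adjoin ℤ {zetaM M} := by
  rw [wpCoeff_of_ne_zero M a b hN]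
  exact Subalgebra.sum_mem _ fun d _ => wpTerm_mem_adjoin M a b d _

theorem isIntegral_wpCoeff (a b : ℤ) {N : ℕ} (hN : N ≠ 0) : IsIntegral ℤ (wpCoeff M a b N) :=
  isIntegral_of_mem_adjoin M (wpCoeff_mem_adjoin M a b hN)

omit [NeZero M] in
/-- The constant coefficient for `M ∤ a` is `1/12`. -/
theorem twelve_mul_wpCoeff_zero_of_not_dvd {a : ℤ} (ha : ¬ (M : ℤ) ∣ a) (b : ℤ) :
    12 * wpCoeff M a b 0 = 1 := by
  rw [wpCoeff_zero, if_neg ha]
  norm_num

/-- The constant coefficient for `M ∣ a`, `M ∤ b`, cleared of denominators: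
`(1 - ζ^b)² · 12 · c₀ = (1 - ζ^b)² + 12 ζ^b`. -/
theorem one_sub_sq_mul_twelve_mul_wpCoeff_zero {a b : ℤ} (ha : (M : ℤ) ∣ a)
    (hb : ¬ (M : ℤ) ∣ b) :
    (1 - zetaM M ^ b) ^ 2 * (12 * wpCoeff M a b 0) =
      (1 - zetaM M ^ b) ^ 2 + 12 * zetaM M ^ b := by
  rw [wpCoeff_zero, if_pos ha, phiL]
  have h := one_sub_zetaM_zpow_ne_zero M hb
  field_simp

theorem one_sub_sq_mul_twelve_mul_wpCoeff_zero_mem {a b : ℤ} (ha : (M : ℤ) ∣ a)
    (hb : ¬ (M : ℤ) ∣ b) :
    (1 - zetaM M ^ b) ^ 2 * (12 * wpCoeff M a b 0) ∈ Algebra.adjoin ℤ {zetaM M} := by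
  rw [one_sub_sq_mul_twelve_mul_wpCoeff_zero M ha hb]
  exact Subalgebra.add_mem _ (Subalgebra.pow_mem _ (one_sub_zetaM_zpow_mem M b) 2)
    (Subalgebra.mul_mem _ (ofNat_mem _ 12) (zetaM_zpow_mem M b))

/-- **Integrality of the constant coefficient** up to `12 (1 - ζ^b)²`. -/
theorem isIntegral_one_sub_sq_mul_twelve_mul_wpCoeff_zero {a b : ℤ} (ha : (M : ℤ) ∣ a)
    (hb : ¬ (M : ℤ) ∣ b) :
    IsIntegral ℤ ((1 - zetaM M ^ b) ^ 2 * (12 * wpCoeff M a b 0)) :=
  isIntegral_of_mem_adjoin M (one_sub_sq_mul_twelve_mul_wpCoeff_zero_mem M ha hb)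

/-- All coefficients become integral after multiplication by `12 M²` (for a label
`(a, b) ≢ 0 mod M`): the denominators of the `q_M`-expansion of `(2πi)⁻² f_(a,b)` are bounded. -/
theorem isIntegral_twelve_mul_sq_mul_wpCoeff {a b : ℤ} (hv : ¬ ((M : ℤ) ∣ a ∧ (M : ℤ) ∣ b))
    (N : ℕ) : IsIntegral ℤ (12 * (M : ℂ) ^ 2 * wpCoeff M a b N) := by
  by_cases hN : N = 0
  · subst hN
    by_cases ha : (M : ℤ) ∣ a
    · have hb : ¬ (M : ℤ) ∣ b := fun hb => hv ⟨ha, hb⟩
      have h1 := isIntegral_one_sub_sq_mul_twelve_mul_wpCoeff_zero M ha hb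
      have h2 := (isIntegral_natCast_div_one_sub_zetaM_zpow M hb).pow 2
      have h0 := one_sub_zetaM_zpow_ne_zero M hb
      have e : 12 * (M : ℂ) ^ 2 * wpCoeff M a b 0 =
          ((M : ℂ) / (1 - zetaM M ^ b)) ^ 2 *
            ((1 - zetaM M ^ b) ^ 2 * (12 * wpCoeff M a b 0)) := by
        field_simp
      rw [e]
      exact h2.mul h1
    · have e : 12 * (M : ℂ) ^ 2 * wpCoeff M a b 0 = (M : ℂ) ^ 2 := by
        rw [mul_right_comm, twelve_mul_wpCoeff_zero_of_not_dvd M ha, one_mul]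
      rw [e]
      have hMint : IsIntegral ℤ (M : ℂ) := by
        have : (M : ℂ) = algebraMap ℤ ℂ (M : ℤ) := by simp
        rw [this]
        exact isIntegral_algebraMap
      exact hMint.pow 2
  · have h12 : IsIntegral ℤ (12 * (M : ℂ) ^ 2) := by
      have : (12 * (M : ℂ) ^ 2) = algebraMap ℤ ℂ (12 * (M : ℤ) ^ 2) := by
        simp
      rw [this]
      exact isIntegral_algebraMap
    exact h12.mul (isIntegral_wpCoeff M a b hN)

end Integer

end Fermat.Agent.S48x.PPack
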